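import Fermat.Agent.S36.Kum.Bar
import Fermat.Agent.S36.Desc
import Fermat.Agent.SS.Mod.Compat

/-!
# RIB / KEY (K1) : a torsion class fixed by a subgroup `H` of `G_ℚ` has an `H`-fixed Kummer generator

`y ∈ J₀(N)[m]`, `τ y = y` for all `τ ∈ H`.  Then `y = [D]`, `m D = div f` with `τ f = f`, `τ D = D` for all `τ ∈ H`.

Proof.  `y = [D₀]`, `m D₀ = div f₀`; `τ f₀ / f₀` is an `m`-th power; `S36.exists_invariant_mul_pow` gives `b` with
`f := f₀ b ^ m` fixed by `H`; `D := D₀ + div b`.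
-/

set_option autoImplicit false
set_option linter.style.haveILetI false
set_option linter.unusedSectionVars false

noncomputable section

open AlgebraicCurve ModularCurve

namespace Fermat.Agent.RIB.Key

open Fermat.Agent.RED hiding Kb
open Fermat.Agent.S24 Fermat.Agent.RED.TorsES Fermat.Agent.SS

/-- the divisor in `IsDiv m D f` is determined by `f` -/
theorem isDiv_unique {K F : Type*} [Field K] [Field F] [Algebra K F] {m : ℤ} (hm : m ≠ 0)
    {D E : Divisor K F} {f : F} (hD : IsDiv m D f) (hE : IsDiv m E f) : D = E := by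
  ext P
  exact mul_left_cancel₀ hm ((hD.2 P).trans (hE.2 P).symm)

/-- **(K1)** -/
theorem exists_fixed_isDiv (N : ℕ) [NeZero N] (H : Subgroup GQ) {m : ℕ} (hm : m ≠ 0)
    (y : JZero N) (hy : m • y = 0) (hH : ∀ τ ∈ H, τ • y = y) :
    ∃ (D : Divisor.degZero (K := Kb) (F := FN N)) (f : FN N), Pic0.mk D = y ∧
      IsDiv m (D : Divisor Kb (FN N)) f ∧ (∀ τ ∈ H, gal N τ • f = f) ∧
      (∀ τ ∈ H, gal N τ • (D : Divisor Kb (FN N)) = D) := by
  obtain ⟨D, rfl⟩ := Pic0.mk_surjective y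
  obtain ⟨f, hf⟩ := TorsES.exists_isDiv_of_nsmul_eq_zero hy
  have hm' : (m : ℤ) ≠ 0 := by exact_mod_cast hm
  haveI : HasPrincipalDivisors Kb (FN N) :=
    (GAL.HeckeInputs.isFiniteParam_jF N).hasPrincipalDivisors
  have h2 : ∀ σ ∈ H, ∃ u : FN N,
      arithmeticGalois (modularFunctionFieldFull N) σ • f = f * u ^ m := by
    intro σ hσ
    have e := hH σ hσ
    rw [galois_smul_pic0_def, SemilinearAut.pic0_smul_mk, ← sub_eq_zero, ← TorsES.mk_sub',
      TorsES.mk_eq_zero_iff] at e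
    obtain ⟨u, hu0, hu⟩ := e
    have hσf := hf.smul (arithmeticGalois (modularFunctionFieldFull N) σ)
    obtain ⟨c, hc⟩ := S36.Kum.exists_eq_mul_pow_of_ord_eq N hm hσf.1
      (mul_ne_zero hf.1 (pow_ne_zero m hu0)) (fun P => by
        rw [P.ord_mul hf.1 (pow_ne_zero m hu0), S24.Place.ord_pow, ← hσf.2 P, ← hf.2 P, ← hu P]
        simp only [AddSubgroupClass.coe_sub, SemilinearAut.coe_degZeroSMulHom, Finsupp.sub_apply]
        ring)
    exact ⟨u * algebraMap Kb _ c, by rw [hc, mul_pow, mul_assoc]⟩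
  obtain ⟨b, hb0, hb⟩ := S36.exists_invariant_mul_pow (modularFunctionFieldFull N) hm H f hf.1 h2
  obtain ⟨B, hB, hB0⟩ := HasPrincipalDivisors.exists_divisor (K := Kb) b hb0
  have hDiv : IsDiv (m : ℤ) ((D : Divisor Kb (FN N)) + B) (f * b ^ m) :=
    ⟨mul_ne_zero hf.1 (pow_ne_zero m hb0), fun P => by
      rw [Finsupp.add_apply, mul_add, hf.2 P, hB P, P.ord_mul hf.1 (pow_ne_zero m hb0),
        S24.Place.ord_pow]⟩
  refine ⟨D + ⟨B, hB0⟩, f * b ^ m, ?_, hDiv, hb, fun τ hτ => ?_⟩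
  · have h0 : Pic0.mk (⟨B, hB0⟩ : Divisor.degZero (K := Kb) (F := FN N)) = 0 := by
      rw [TorsES.mk_eq_zero_iff]
      exact ⟨b, hb0, hB⟩
    have h1 : Pic0.mk (D + ⟨B, hB0⟩) = Pic0.mk D + Pic0.mk ⟨B, hB0⟩ := rfl
    rw [h1, h0, add_zero]
  · have h3 := hDiv.smul (gal N τ)
    rw [hb τ hτ] at h3
    exact isDiv_unique hm' h3 hDiv

end Fermat.Agent.RIB.Key
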