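import Mathlib

/-!
# RIB / KEY (K4b) : [KILL-p], the abstract argument

Variant of `S40.Kill.red_eq_zero_abs` (helper81, helper14) for an endomorphism `u` which is only known to kill the `p`-TORSION `J[p]`
(in RIB "`ρ̄` does not occur at the level `M`" only gives such a `u`).

`J` divisible, `σ` an automorphism, `u` an endomorphism commuting with `σ`, killing `J[p]` and preserving the kernel of `red : J → J'`;
`red` maps the `σ`-fixed points into a finite subgroup `R`.  Then for every `σ`-fixed `y` such that `red y` is killed by a power of `p`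
there is `a` with `red (u ^ a y) = 0`.

Proof.  `#R = p ^ a h'`, `p ∤ h'`; `y = p ^ a z`; `σ z - z ∈ J[p ^ a]` is killed by `u ^ a`, so `u ^ a z` is `σ`-fixed and
`c := red (u ^ a y) = p ^ a red (u ^ a z)` is killed by `h'`.  It is also killed by `p ^ e` because `red (p ^ e y) = 0` and `u` preserves `ker red`.
-/

set_option autoImplicit false

namespace Fermat.Agent.RIB.Key

variable {J J' : Type*} [AddCommGroup J] [AddCommGroup J']

/-- `u` kills `J[p]` ⟹ `u ^ a` kills `J[p ^ a]`. -/
theorem pow_kills_pow_torsion {p : ℕ} (u : Module.End ℤ J) (hkill : ∀ x : J, p • x = 0 → u x = 0)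
    (a : ℕ) : ∀ x : J, p ^ a • x = 0 → (u ^ a) x = 0 := by
  induction a with
  | zero => intro x hx; simpa using hx
  | succ a ih =>
    intro x hx
    rw [pow_succ, Module.End.mul_apply]
    apply ih
    rw [← map_nsmul]
    apply hkill
    rw [← mul_smul, ← pow_succ']
    exact hx

theorem pow_preserves_ker (red : J →+ J') (u : Module.End ℤ J)
    (hstab : ∀ z : J, red z = 0 → red (u z) = 0) (a : ℕ) :
    ∀ z : J, red z = 0 → red ((u ^ a) z) = 0 := by
  induction a with
  | zero => intro z hz; simpa using hz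
  | succ a ih =>
    intro z hz
    rw [pow_succ, Module.End.mul_apply]
    exact ih _ (hstab z hz)

theorem pow_comm_of_comm (σ : J →+ J) (u : Module.End ℤ J) (hcomm : ∀ x, u (σ x) = σ (u x))
    (a : ℕ) : ∀ x, (u ^ a) (σ x) = σ ((u ^ a) x) := by
  induction a with
  | zero => intro x; simp
  | succ a ih =>
    intro x
    rw [pow_succ, Module.End.mul_apply, Module.End.mul_apply, hcomm, ih]

theorem eq_zero_of_coprime_nsmul {a b : ℕ} (hab : Nat.Coprime a b) (c : J') (ha : a • c = 0)
    (hb : b • c = 0) : c = 0 := by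
  have h1 : (a : ℤ) * Nat.gcdA a b + (b : ℤ) * Nat.gcdB a b = 1 := by
    have := Nat.gcd_eq_gcd_ab a b
    rw [hab] at this
    exact_mod_cast this.symm
  have h2 : c = Nat.gcdA a b • (a • c) + Nat.gcdB a b • (b • c) := by
    rw [← natCast_zsmul c a, ← natCast_zsmul c b, ← mul_smul, ← mul_smul, ← add_smul,
      mul_comm _ (a : ℤ), mul_comm _ (b : ℤ), h1, one_smul]
  rw [h2, ha, hb, smul_zero, smul_zero, add_zero]

/-- **[KILL-p]**, abstract form. -/
theorem red_pow_eq_zero_abs {p : ℕ} (hp : p.Prime) (σ : J →+ J) (u : Module.End ℤ J)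
    (hcomm : ∀ x, u (σ x) = σ (u x))
    (hdiv : ∀ n : ℕ, 0 < n → ∀ y : J, ∃ z : J, n • z = y)
    (hkill : ∀ x : J, p • x = 0 → u x = 0)
    (red : J →+ J') (hstab : ∀ z : J, red z = 0 → red (u z) = 0)
    (R : AddSubgroup J') [Finite R] (hR : ∀ z : J, σ z = z → red z ∈ R)
    (y : J) (hy : σ y = y) (e : ℕ) (hye : p ^ e • red y = 0) :
    ∃ a : ℕ, red ((u ^ a) y) = 0 := by
  obtain ⟨a, h', hh', hcard⟩ :=
    Nat.exists_eq_pow_mul_and_not_dvd (n := Nat.card R) Nat.card_pos.ne' p hp.ne_one
  refine ⟨a, ?_⟩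
  obtain ⟨z, hz⟩ := hdiv (p ^ a) (pow_pos hp.pos a) y
  have h1 : (u ^ a) (σ z - z) = 0 := by
    apply pow_kills_pow_torsion u hkill a
    rw [smul_sub, ← map_nsmul, hz, hy, sub_self]
  have h2 : σ ((u ^ a) z) = (u ^ a) z := by
    rw [map_sub, sub_eq_zero] at h1
    rw [← pow_comm_of_comm σ u hcomm a, h1]
  have h3 : Nat.card R • (⟨red ((u ^ a) z), hR _ h2⟩ : R) = 0 := card_nsmul_eq_zero'
  have h4 : Nat.card R • red ((u ^ a) z) = 0 := by
    have := congrArg Subtype.val h3
    rwa [AddSubgroup.coe_nsmul, AddSubgroup.coe_zero] at this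
  have h5 : h' • red ((u ^ a) y) = 0 := by
    rw [← hz, map_nsmul, map_nsmul, ← mul_smul, mul_comm, ← hcard, h4]
  have h6 : p ^ e • red ((u ^ a) y) = 0 := by
    rw [← map_nsmul, ← map_nsmul]
    apply pow_preserves_ker red u hstab a
    rw [map_nsmul, hye]
  exact eq_zero_of_coprime_nsmul
    (Nat.Coprime.pow_left e ((Nat.Prime.coprime_iff_not_dvd hp).2 hh')) _ h6 h5

end Fermat.Agent.RIB.Key
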