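import Fermat.Agent.RIB.Deg.Kum
import Fermat.Agent.S40.HK.Formal

/-!
# RIB / KEY (K2c) : Kummer functions and the multiplicative Hecke operator `T^×_r u = N_α (β u)`

`S40.HK.TX N r u = N_{α_r} (β_r u)` (helper52, `S40/HK/Formal.lean`).
`kum_hecke` : if `f` is a Kummer function of the `m`-torsion class `x` then `TX N r f` is a Kummer function of `T_r x`.
-/

set_option autoImplicit false
set_option linter.style.haveILetI false
set_option linter.unusedSectionVars false

noncomputable section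

open AlgebraicCurve ModularCurve

namespace Fermat.Agent.RIB.Key

open Fermat.Agent.RED hiding Kb
open Fermat.Agent.S24 Fermat.Agent.RED.TorsES Fermat.Agent.SS Fermat.Agent.S40.HK
open Fermat.Agent.GAL.HeckeInputs

variable (N r : ℕ) [NeZero N] [NeZero r]

/-- Kummer functions and Hecke operators. -/
theorem kum_hecke (hr : r.Prime) {m : ℕ} {x : JZero N} {f : FN N} (hx : Kum m x f) :
    Kum m (heckeOperatorBar N ⟨r, hr⟩ x) (TX N r f) := by
  haveI : HasPrincipalDivisors Kb (FN (N * r)) :=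
    (isFiniteParam_jF (N * r)).hasPrincipalDivisors
  have h1 : heckeOperatorBar N ⟨r, hr⟩ x =
      pushPic0 (heckeAlphaBar Kb N r) (heckeAlphaBarIntegral N r) (finiteAlong_alpha N r)
        (normFormulaAlong_alpha N r)
        (pullPic0 (heckeBetaBar Kb N r) (heckeBetaBarIntegral N r)
          (fundamentalIdentityAlong_beta N r) x) := by
    show heckeOperatorAlong (AlgebraicClosure ℚ) N r x = _
    rw [heckeOperatorAlong_eq' N r, heckePic0Bar]
    exact RIB.correspondence_eq_push_pull _ _ _ _ _ _ _ x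
  rw [h1]
  exact (hx.pull _ _ _).push _ _ _ _

/-- `TX` for a prime, with the `NeZero` instance filled in. -/
def TxP (N : ℕ) [NeZero N] (r : Nat.Primes) (u : FN N) : FN N :=
  haveI : NeZero (r : ℕ) := ⟨r.2.ne_zero⟩
  TX N r u

theorem kum_heckeP (r : Nat.Primes) {m : ℕ} {x : JZero N} {f : FN N} (hx : Kum m x f) :
    Kum m (heckeOperatorBar N r x) (TxP N r f) := by
  haveI : NeZero (r : ℕ) := ⟨r.2.ne_zero⟩
  exact kum_hecke N (r : ℕ) r.2 hx

theorem TxP_const_mul (r : Nat.Primes) (hrN : ¬ (r : ℕ) ∣ N) (c : Kb) (u : FN N) :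
    TxP N r (algebraMap Kb (FN N) c * u) = algebraMap Kb (FN N) (c ^ ((r : ℕ) + 1)) * TxP N r u := by
  haveI : NeZero (r : ℕ) := ⟨r.2.ne_zero⟩
  exact TX_const_mul r.2 hrN c u

theorem gal_smul_TxP (r : Nat.Primes) (hrN : ¬ (r : ℕ) ∣ N) (σ : GQ) (u : FN N) :
    gal N σ • TxP N r u = TxP N r (gal N σ • u) := by
  haveI : NeZero (r : ℕ) := ⟨r.2.ne_zero⟩
  exact gal_smul_TX r.2 hrN σ u

/-- the Eisenstein quotient `T^×_r f / f ^ (r + 1)` does not change if `f` is multiplied by a constant. -/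
theorem eis_const_mul (r : Nat.Primes) (hrN : ¬ (r : ℕ) ∣ N) {c : Kb} (hc : c ≠ 0) (f : FN N) :
    TxP N r (algebraMap Kb (FN N) c * f) / (algebraMap Kb (FN N) c * f) ^ ((r : ℕ) + 1) =
      TxP N r f / f ^ ((r : ℕ) + 1) := by
  have hc' : algebraMap Kb (FN N) c ^ ((r : ℕ) + 1) ≠ 0 :=
    pow_ne_zero _ (by rw [Ne, map_eq_zero]; exact hc)
  rw [TxP_const_mul N r hrN, mul_pow, map_pow, mul_div_mul_left _ _ hc']

end Fermat.Agent.RIB.Key
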