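import Fermat.Agent.RIB.Key.TriAbs
import Fermat.Agent.RIB.Key.Tx
import Fermat.Agent.RIB.Key.H90
import Fermat.Agent.RIB.Lift.Tors
import Fermat.Agent.RIB.Key.KillAbs
import Fermat.Agent.SS.Swap.Mod
import Fermat.Agent.HK.Good
import Fermat.Agent.SSP.Basic

/-!
# RIB / KEY : (KEY-GEO)   — the geometric core of Mazur's principle at a prime `q ≠ p`, `q ∥ level`

Level `M q`, `M` rigid (`4 ∣ M` or `9 ∣ M`), `q ∤ M`, `A ∣ q`, `T = SS.twoRed` = the two Gauss valuations of `F = F_{M q}`,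
`I = I_A`, `m = p ^ e`, `p ≠ q`.

The only input which is proved elsewhere is stated as a `Prop`:

* `FD0Hyp hqM A m`    [FD0-MOD]   : an `I`-fixed function `f` with `div f = m D` which is a unit for both valuations has reductions whose
  divisors are divisible by `m`   (`RIB/Key/FDMod.lean`).

Main result `isToric_poly` : `y ∈ J₀(M q)[p ^ e]` fixed by `I`, `t₀` a Hecke polynomial killing `J₀(M)[p]`.  Then
`t₀ ^ e (T_{ℓ₀} - ℓ₀ - 1) y` is toric.  By [LIFT] (helper54, helper71) the classes `κ_i` of `(T_{ℓ₀} - ℓ₀ - 1) y` lift to `p ^ e`-TORSION points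
`y_i` of `J₀(M)`, the relation `Tri` is Hecke stable ([HK-FORMAL] helper52, `HK.Rel` helper69), and `t₀ ^ e y_i = 0`.
-/

set_option autoImplicit false
set_option linter.style.haveILetI false
set_option linter.unusedSectionVars false
set_option synthInstance.maxHeartbeats 400000

noncomputable section

open AlgebraicCurve ModularCurve IsLocalRing

namespace Fermat.Agent.RIB.Key

open Fermat.Agent.RED hiding Kb
open Fermat.Agent.S24 Fermat.Agent.RED.TorsES Fermat.Agent.SS Fermat.Agent.SSP Fermat.Agent.HK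
open Fermat.Agent.S40.HK
open Fermat.Agent.RED.Cusp (Fb)

/-! ### generalities on `rd` -/

section Rd

variable {K F k Fb : Type*} [Field K] [Field F] [Algebra K F] [Field k] [Field Fb] [Algebra k Fb]
variable {O : ValuationSubring F} {red : O →+* Fb}

theorem rd_mul_of_val {f g : F} (hf : O.valuation f = 1) (hg : O.valuation g = 1) :
    rd O red (f * g) = rd O red f * rd O red g :=
  rd_mul (mem_of_val_le hf.le) (mem_of_val_le hg.le)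

theorem rd_inv_of_val {f : F} (hf : O.valuation f = 1) : rd O red f⁻¹ = (rd O red f)⁻¹ := by
  have hf0 : f ≠ 0 := by
    rintro rfl
    simp at hf
  have h1 : rd O red f * rd O red f⁻¹ = 1 := by
    rw [← rd_mul_of_val hf (by rw [map_inv₀, hf, inv_one]), mul_inv_cancel₀ hf0, rd_one]
  exact eq_inv_of_mul_eq_one_right h1

theorem rd_ne_zero_of_val {f : F} (hf : O.valuation f = 1) : rd O red f ≠ 0 := by
  have hf0 : f ≠ 0 := by
    rintro rfl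
    simp at hf
  intro h0
  have h1 : rd O red f * rd O red f⁻¹ = 1 := by
    rw [← rd_mul_of_val hf (by rw [map_inv₀, hf, inv_one]), mul_inv_cancel₀ hf0, rd_one]
  rw [h0, zero_mul] at h1
  exact zero_ne_one h1

theorem val_eq_one_of_pow {g : F} {m : ℕ} (hm : m ≠ 0) (h : O.valuation (g ^ m) = 1) :
    O.valuation g = 1 := by
  rw [map_pow] at h
  exact (pow_eq_one_iff_of_nonneg zero_le hm).1 h

/-- an element of `O` with nonzero reduction has valuation `1`. -/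
theorem RedData_val_eq_one (R : RedData K F k Fb) {f : F} (hf : f ∈ R.O)
    (h : R.red ⟨f, hf⟩ ≠ 0) : R.O.valuation f = 1 :=
  (ValuationSubring.valuation_eq_one_iff R.O ⟨f, hf⟩).1 (R.isUnit_of_red_ne_zero _ h)

/-- every nonzero function is a constant times a unit -/
theorem RedData_exists_val_eq_one (R : RedData K F k Fb) {f : F} (hf : f ≠ 0) :
    ∃ c : K, c ≠ 0 ∧ R.O.valuation (algebraMap K F c * f) = 1 := by
  obtain ⟨c, h, hc⟩ := R.exists_scale f hf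
  refine ⟨c, ?_, RedData_val_eq_one R h hc⟩
  rintro rfl
  apply hc
  have : (⟨algebraMap K F 0 * f, h⟩ : R.O) = 0 := Subtype.ext (by simp)
  rw [this, map_zero]

end Rd

/-! ### [HK-FORMAL] in the `rd` language, [FD0-MOD] -/

variable {M q : ℕ} [NeZero M] [hq : Fact q.Prime] (hqM : ¬ q ∣ M)
variable (A : ValuationSubring Kb) [CharP (ResidueField A) q] [IsAlgClosed (ResidueField A)]

local notation "kA" => ResidueField A
local notation "TT" => twoRed hqM (residue A) residue_surjective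

theorem isPrimitiveRoot_zetaA' (r : ℕ) [NeZero r] : IsPrimitiveRoot (zetaA A r) r :=
  IsPrimitiveRoot.of_map_of_injective (isPrimitiveRoot_zetaA A r)
    (Units.map_injective (f := (A.subtype : A →* Kb)) A.subtype_injective)

theorem formal₁ (r : Nat.Primes) (hr : ¬ (r : ℕ) ∣ M * q) {u : FN (M * q)}
    (hu : (TT).R₁.O.valuation u = 1) :
    haveI : NeZero (r : ℕ) := ⟨r.2.ne_zero⟩
    (TT).R₁.O.valuation (TxP (M * q) r u) = 1 ∧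
      FormalT (r : ℕ) (zetaK (r : ℕ) (residue A)) ((rd₁ (TT) u : Fb kA M) : LaurentSeries kA)
        ((rd₁ (TT) (TxP (M * q) r u) : Fb kA M) : LaurentSeries kA) := by
  haveI : NeZero (r : ℕ) := ⟨r.2.ne_zero⟩
  have hu' : u ∈ (TT).R₁.O := mem_of_val_le hu.le
  obtain ⟨h, e⟩ := TX_mem_R₁ hqM (residue A) residue_surjective r.2 hr (zetaA A r)
    (isPrimitiveRoot_zetaA' A r) hu'
  have h0 : (TT).R₁.red ⟨u, hu'⟩ ≠ 0 := by
    rw [← rd_of_mem hu']; exact rd_ne_zero_of_val hu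
  have h1 : (TT).R₁.red ⟨_, h⟩ ≠ 0 := fun h' =>
    e.ne_zero (fun h'' => h0 (Subtype.ext h'')) (by rw [h']; rfl)
  refine ⟨RedData_val_eq_one _ h h1, ?_⟩
  have e1 : rd₁ (TT) u = (TT).R₁.red ⟨u, hu'⟩ := rd_of_mem hu'
  have e2 : rd₁ (TT) (TxP (M * q) r u) = (TT).R₁.red ⟨_, h⟩ := rd_of_mem h
  rw [e1, e2]
  exact e

theorem formal₂ (r : Nat.Primes) (hr : ¬ (r : ℕ) ∣ M * q) {u : FN (M * q)}
    (hu : (TT).R₂.O.valuation u = 1) :
    haveI : NeZero (r : ℕ) := ⟨r.2.ne_zero⟩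
    (TT).R₂.O.valuation (TxP (M * q) r u) = 1 ∧
      FormalT (r : ℕ) (zetaK (r : ℕ) (residue A)) ((rd₂ (TT) u : Fb kA M) : LaurentSeries kA)
        ((rd₂ (TT) (TxP (M * q) r u) : Fb kA M) : LaurentSeries kA) := by
  haveI : NeZero (r : ℕ) := ⟨r.2.ne_zero⟩
  have hu' : u ∈ (TT).R₂.O := mem_of_val_le hu.le
  obtain ⟨h, e⟩ := TX_mem_R₂ hqM (residue A) residue_surjective r.2 hr (zetaA A r)
    (isPrimitiveRoot_zetaA' A r) hu'
  have h0 : (TT).R₂.red ⟨u, hu'⟩ ≠ 0 := by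
    rw [← rd_of_mem hu']; exact rd_ne_zero_of_val hu
  have h1 : (TT).R₂.red ⟨_, h⟩ ≠ 0 := fun h' =>
    e.ne_zero (fun h'' => h0 (Subtype.ext h'')) (by rw [h']; rfl)
  refine ⟨RedData_val_eq_one _ h h1, ?_⟩
  have e1 : rd₂ (TT) u = (TT).R₂.red ⟨u, hu'⟩ := rd_of_mem hu'
  have e2 : rd₂ (TT) (TxP (M * q) r u) = (TT).R₂.red ⟨_, h⟩ := rd_of_mem h
  rw [e1, e2]
  exact e

/-- **[FD0-MOD]** -/
def FD0Hyp (m : ℕ) : Prop :=
  ∀ (D : Divisor Kb (FN (M * q))) (f : FN (M * q)), IsDiv (m : ℤ) D f →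
    (∀ τ ∈ A.inertiaSubgroupIn ℚ, gal (M * q) τ • f = f) →
    (TT).R₁.O.valuation f = 1 → (TT).R₂.O.valuation f = 1 →
    (∀ Q : Place kA (Fb kA M), (m : ℤ) ∣ Q.ord (rd₁ (TT) f)) ∧
      ∀ Q : Place kA (Fb kA M), (m : ℤ) ∣ Q.ord (rd₂ (TT) f)

/-! ### the instance of `TriData` -/

section Tri

variable (hA : A.LiesOverPrime q) (h49 : 4 ∣ M ∨ 9 ∣ M) (h : ReductionInputsModL A M)
variable {m : ℕ} (hm : m ≠ 0) (S : Set ℕ) (hS : ∀ r : Nat.Primes, (r : ℕ) ∉ S → ¬ (r : ℕ) ∣ M * q)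

/-- unit for both valuations -/
def IsU (f : FN (M * q)) : Prop := (TT).R₁.O.valuation f = 1 ∧ (TT).R₂.O.valuation f = 1

include hA hqM in
theorem rel_one' : Rel (A := A) m (1 : Fb kA M) (0 : JZero M) := by
  have := rel_const_mul_pow (M := M) (A := A) hA hqM m (c := 1) one_ne_zero (u := 1) one_ne_zero
  rwa [map_one, one_pow, one_mul] at this

include hA hqM in
theorem rel_pow_zero {u : Fb kA M} (hu : u ≠ 0) : Rel (A := A) m (u ^ m) (0 : JZero M) := by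
  have := rel_const_mul_pow (M := M) (A := A) hA hqM m (c := 1) one_ne_zero hu
  rwa [map_one, one_mul] at this

include hA hm in
theorem rel_of_kum_zero' {f : FN (M * q)} (hk : Kum m (0 : JZero (M * q)) f) (hU : IsU hqM A f) :
    Rel (A := A) m (rd₁ (TT) f) (0 : JZero M) ∧ Rel (A := A) m (rd₂ (TT) f) (0 : JZero M) := by
  obtain ⟨D, hD0, hD⟩ := hk
  rw [TorsES.mk_eq_zero_iff] at hD0
  obtain ⟨g, hg0, hg⟩ := hD0
  obtain ⟨c, hc⟩ := S36.Kum.exists_eq_mul_pow_of_ord_eq (M * q) hm hD.1 (pow_ne_zero m hg0)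
    (fun P => by rw [S24.Place.ord_pow, ← hD.2 P, hg P])
  rw [← mul_pow] at hc
  set g' : FN (M * q) := g * algebraMap Kb (FN (M * q)) c with hg'
  have h1 : (TT).R₁.O.valuation g' = 1 := val_eq_one_of_pow hm (by rw [← hc]; exact hU.1)
  have h2 : (TT).R₂.O.valuation g' = 1 := val_eq_one_of_pow hm (by rw [← hc]; exact hU.2)
  constructor
  · rw [hc, rd₁, rd_pow (mem_of_val_le h1.le)]
    exact rel_pow_zero hqM A hA (rd_ne_zero_of_val h1)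
  · rw [hc, rd₂, rd_pow (mem_of_val_le h2.le)]
    exact rel_pow_zero hqM A hA (rd_ne_zero_of_val h2)

include hS in
theorem not_dvd_M (r : {r : Nat.Primes // (r : ℕ) ∉ S}) : ¬ ((r : Nat.Primes) : ℕ) ∣ M :=
  fun hd => hS r.1 r.2 (hd.mul_right q)

/-- the concrete `TriData`. -/
def triData : TriData (JZero (M * q)) (JZero M) (JZeroC kA M) (FN (M * q)) (Fb kA M)
    {r : Nat.Primes // (r : ℕ) ∉ S} where
  red := reductionModL A M
  Kum := Kum m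
  U := IsU hqM A
  ρ₁ := rd₁ (TT)
  ρ₂ := rd₂ (TT)
  Rel := Rel (A := A) m
  kum_zero := Kum.zero
  kum_add := fun h h' => h.add h'
  kum_neg := fun h => h.neg
  U_one := ⟨map_one _, map_one _⟩
  U_mul := fun h h' => ⟨by rw [map_mul, h.1, h'.1, one_mul], by rw [map_mul, h.2, h'.2, one_mul]⟩
  U_inv := fun h => ⟨by rw [map_inv₀, h.1, inv_one], by rw [map_inv₀, h.2, inv_one]⟩
  ρ₁_one := rd_one
  ρ₂_one := rd_one
  ρ₁_mul := fun h h' => rd_mul_of_val h.1 h'.1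
  ρ₂_mul := fun h h' => rd_mul_of_val h.2 h'.2
  ρ₁_inv := fun h => rd_inv_of_val h.1
  ρ₂_inv := fun h => rd_inv_of_val h.2
  rel_one := rel_one' hqM A hA
  rel_mul := fun h h' => h.mul h'
  rel_inv := fun h => h.inv
  rel_red_eq := fun h h' => h.red_eq hm h'
  rel_of_kum_zero := fun hk hU => rel_of_kum_zero' hqM A hA hm hk hU
  TX := fun r => heckeOperatorBar (M * q) r.1
  TY := fun r => heckeOperatorBar M r.1
  Tx := fun r => TxP (M * q) r.1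
  kum_hecke := fun r _ _ hx => kum_heckeP (M * q) r.1 hx
  U_hecke := fun r _ hU =>
    ⟨(formal₁ hqM A r.1 (hS r.1 r.2) hU.1).1, (formal₂ hqM A r.1 (hS r.1 r.2) hU.2).1⟩
  rel_hecke₁ := fun r f y hU hR => by
    haveI : NeZero ((r.1 : Nat.Primes) : ℕ) := ⟨r.1.2.ne_zero⟩
    obtain ⟨z, hz, hRz⟩ := hR.hecke hA hqM h49 h r.1 (not_dvd_M S hS r)
    have e : z = rd₁ (TT) (TxP (M * q) r.1 f) :=
      Subtype.ext (hz.unique (formal₁ hqM A r.1 (hS r.1 r.2) hU.1).2)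
    rwa [e] at hRz
  rel_hecke₂ := fun r f y hU hR => by
    haveI : NeZero ((r.1 : Nat.Primes) : ℕ) := ⟨r.1.2.ne_zero⟩
    obtain ⟨z, hz, hRz⟩ := hR.hecke hA hqM h49 h r.1 (not_dvd_M S hS r)
    have e : z = rd₂ (TT) (TxP (M * q) r.1 f) :=
      Subtype.ext (hz.unique (formal₂ hqM A r.1 (hS r.1 r.2) hU.2).2)
    rwa [e] at hRz

/-! ### the start : the Eisenstein step, [FD0-MOD], [LIFT] -/

include hA h49 h hm hqM in
/-- a function whose divisor is divisible by `m` is related to an `m`-TORSION point (`q ∤ m`). -/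
theorem exists_rel_torsion (hqm : ¬ q ∣ m) {w : Fb kA M} (hw : w ≠ 0)
    (hdiv : ∀ Q : Place kA (Fb kA M), (m : ℤ) ∣ Q.ord w) :
    ∃ y : JZero M, m • y = 0 ∧ Rel (A := A) m w y := by
  obtain ⟨y, -, E, hE, -⟩ := exists_rel hA hqM h49 h hm hw hdiv
  have hc : m • (Pic0.mk E : JZeroC kA M) = 0 := by
    have e : m • (Pic0.mk E : JZeroC kA M) = Pic0.mk (m • E) := rfl
    rw [e, Pull.mk_eq_zero_iff]
    refine ⟨w, hw, fun Q => ?_⟩
    show (m • (E : Divisor kA (Fb kA M))) Q = _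
    rw [Finsupp.smul_apply, nsmul_eq_mul, hE]
  obtain ⟨y', hy', hy''⟩ := lift_torsion_rigid M A hA hqM h49 h m hqm _ hc
  exact ⟨y', hy', hw, E, hE, hy''⟩

include hS in
/-- the Eisenstein quotient is a unit for both valuations. -/
theorem isU_eis (ℓ₀ : Nat.Primes) (hℓ₀ : (ℓ₀ : ℕ) ∉ S) {f : FN (M * q)} (hf : f ≠ 0) :
    IsU hqM A (TxP (M * q) ℓ₀ f / f ^ ((ℓ₀ : ℕ) + 1)) := by
  have hN := hS ℓ₀ hℓ₀
  constructor
  · obtain ⟨c, hc, hv⟩ := RedData_exists_val_eq_one (TT).R₁ hf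
    rw [← eis_const_mul (M * q) ℓ₀ hN hc f, map_div₀, (formal₁ hqM A ℓ₀ hN hv).1, map_pow, hv,
      one_pow, div_one]
  · obtain ⟨c, hc, hv⟩ := RedData_exists_val_eq_one (TT).R₂ hf
    rw [← eis_const_mul (M * q) ℓ₀ hN hc f, map_div₀, (formal₂ hqM A ℓ₀ hN hv).1, map_pow, hv,
      one_pow, div_one]

include hA h49 h hm hS in
/-- **the start** -/
theorem exists_tri (hqm : ¬ q ∣ m) (hFD : FD0Hyp hqM A m) (ℓ₀ : Nat.Primes) (hℓ₀ : (ℓ₀ : ℕ) ∉ S)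
    {x : JZero (M * q)} (hx : m • x = 0) (hI : ∀ τ ∈ A.inertiaSubgroupIn ℚ, τ • x = x) :
    ∃ y₁ y₂ : JZero M, m • y₁ = 0 ∧ m • y₂ = 0 ∧
      (triData hqM A hA h49 h hm S hS).Tri
        (heckeOperatorBar (M * q) ℓ₀ x - ((ℓ₀ : ℕ) + 1) • x) y₁ y₂ := by
  obtain ⟨D, f, hD, hf, hfix, -⟩ := exists_fixed_isDiv (M * q) (A.inertiaSubgroupIn ℚ) hm x hx hI
  have hk : Kum m x f := ⟨D, hD, hf⟩
  have hN := hS ℓ₀ hℓ₀
  set f₂ : FN (M * q) := TxP (M * q) ℓ₀ f / f ^ ((ℓ₀ : ℕ) + 1) with hf₂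
  have hk₂ : Kum m (heckeOperatorBar (M * q) ℓ₀ x - ((ℓ₀ : ℕ) + 1) • x) f₂ :=
    (kum_heckeP (M * q) ℓ₀ hk).sub (hk.nsmul _)
  have hU : IsU hqM A f₂ := isU_eis hqM A S hS ℓ₀ hℓ₀ hf.1
  have hfix₂ : ∀ τ ∈ A.inertiaSubgroupIn ℚ, gal (M * q) τ • f₂ = f₂ := by
    intro τ hτ
    rw [hf₂, SemilinearAut.smul_def, map_div₀, map_pow, ← SemilinearAut.smul_def,
      ← SemilinearAut.smul_def, gal_smul_TxP (M * q) ℓ₀ hN, hfix τ hτ]
  obtain ⟨D₂, -, hD₂⟩ := hk₂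
  obtain ⟨hd1, hd2⟩ := hFD D₂ f₂ hD₂ hfix₂ hU.1 hU.2
  obtain ⟨y₁, hy₁, hR₁⟩ := exists_rel_torsion hqM A hA h49 h hm hqm (rd_ne_zero_of_val hU.1) hd1
  obtain ⟨y₂, hy₂, hR₂⟩ := exists_rel_torsion hqM A hA h49 h hm hqm (rd_ne_zero_of_val hU.2) hd2
  exact ⟨y₁, y₂, hy₁, hy₂, f₂, (kum_heckeP (M * q) ℓ₀ hk).sub (hk.nsmul _), hU, hR₁, hR₂⟩

/-! ### the end : `Tri z 0 0` means that `z` is toric -/

include hA hm hqM in
theorem exists_pow_eq_of_rel_zero {w : Fb kA M} (hR : Rel (A := A) m w (0 : JZero M)) :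
    ∃ a : Fb kA M, a ≠ 0 ∧ w = a ^ m := by
  obtain ⟨c, u, hc, hu, e⟩ := hR.eq_const_mul_pow hA hqM (map_zero _)
  obtain ⟨d, hd⟩ := IsAlgClosed.exists_pow_nat_eq c (Nat.pos_of_ne_zero hm)
  have hd0 : d ≠ 0 := by
    rintro rfl
    rw [zero_pow hm] at hd
    exact hc hd.symm
  refine ⟨algebraMap kA (Fb kA M) d * u, mul_ne_zero (by rw [Ne, map_eq_zero]; exact hd0) hu, ?_⟩
  rw [e, mul_pow, ← map_pow, hd]

theorem isToric_of_tri {z : JZero (M * q)}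
    (hT : (triData hqM A hA h49 h hm S hS).Tri z 0 0) : IsToric (TT) m z := by
  obtain ⟨f, ⟨D, hDz, hD⟩, hU, hR₁, hR₂⟩ := hT
  obtain ⟨a₁, ha₁, e₁⟩ := exists_pow_eq_of_rel_zero hqM A hA hm hR₁
  obtain ⟨a₂, ha₂, e₂⟩ := exists_pow_eq_of_rel_zero hqM A hA hm hR₂
  have m₁ : f ∈ (TT).R₁.O := mem_of_val_le hU.1.le
  have m₂ : f ∈ (TT).R₂.O := mem_of_val_le hU.2.le
  refine ⟨D, ⟨f, m₁, m₂⟩, a₁, a₂, hDz.symm, hD.2, ha₁, ha₂, Prod.ext ?_ ?_⟩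
  · exact (rd_of_mem m₁).symm.trans e₁
  · exact (rd_of_mem m₂).symm.trans e₂

end Tri

/-! ### the main theorem at a rigid level -/

section Main

open MvPolynomial Fermat.Agent.S40.Kill

variable (hA : A.LiesOverPrime q) (h49 : 4 ∣ M ∨ 9 ∣ M)
variable {p : ℕ} (hp : p.Prime) (hpq : p ≠ q)

include hA h49 hp hpq in
/-- **(KEY-GEO)**, toric form. -/
theorem isToric_poly (S : Set ℕ) (hS : ∀ ℓ : ℕ, ℓ.Prime → ℓ ∉ S → ¬ ℓ ∣ M * q)
    (f : MvPolynomial ℕ ℤ →+* Module.End ℤ (JZero (M * q))) (hf : ∀ ℓ, f (X ℓ) = TJ (M * q) S ℓ)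
    (f' : MvPolynomial ℕ ℤ →+* Module.End ℤ (JZero M)) (hf' : ∀ ℓ, f' (X ℓ) = TJ M S ℓ)
    (t₀ : MvPolynomial ℕ ℤ) (ht₀ : ∀ x : JZero M, p • x = 0 → f' t₀ x = 0)
    (ℓ₀ : ℕ) (hℓ₀ : ℓ₀.Prime) (hℓ₀S : ℓ₀ ∉ S) (e : ℕ) (hFD : FD0Hyp hqM A (p ^ e))
    (y : JZero (M * q)) (hy : p ^ e • y = 0) (hI : ∀ τ ∈ A.inertiaSubgroupIn ℚ, τ • y = y) :
    IsToric (TT) (p ^ e) (f (t₀ ^ e * (X ℓ₀ - C ((ℓ₀ : ℤ) + 1))) y) := by
  have h : ReductionInputsModL A M :=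
    reductionInputsModL_of_genus_le M A hA hqM
      (gen_of_rhRel M (fun _ _ _ _ _ _ _ _ _ _ _ _ h1 h2 => Fermat.Agent.RR.rhRel h1 h2) h49 _ hqM)
  have hm : p ^ e ≠ 0 := pow_ne_zero e hp.ne_zero
  have hqm : ¬ q ∣ p ^ e := fun hd =>
    hpq ((Nat.prime_dvd_prime_iff_eq hq.out hp).1 (hq.out.dvd_of_dvd_pow hd)).symm
  have hS' : ∀ r : Nat.Primes, (r : ℕ) ∉ S → ¬ (r : ℕ) ∣ M * q := fun r hr => hS r r.2 hr
  obtain ⟨y₁, y₂, hy₁, hy₂, hT⟩ :=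
    exists_tri hqM A hA h49 h hm S hS' hqm hFD ⟨ℓ₀, hℓ₀⟩ hℓ₀S hy hI
  set 𝒯 := triData hqM A hA h49 h hm S hS' with h𝒯
  have hTJ : ∀ (ℓ : ℕ) {x : JZero (M * q)} {z₁ z₂ : JZero M}, 𝒯.Tri x z₁ z₂ →
      𝒯.Tri (TJ (M * q) S ℓ x) (TJ M S ℓ z₁) (TJ M S ℓ z₂) := by
    intro ℓ x z₁ z₂ hx
    by_cases hℓ : ℓ.Prime ∧ ℓ ∉ S
    · rw [TJ_of_good hℓ.1 hℓ.2, TJ_of_good hℓ.1 hℓ.2]
      exact 𝒯.tri_hecke ⟨⟨ℓ, hℓ.1⟩, hℓ.2⟩ hx
    · rw [TJ_of_bad hℓ, TJ_of_bad hℓ]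
      exact 𝒯.isAddRel.zero
  have hpoly := 𝒯.isAddRel.poly (TJ (M * q) S) (TJ M S) hTJ f hf f' hf' (t₀ ^ e) hT
  rw [map_pow f', pow_kills_pow_torsion (f' t₀) ht₀ e y₁ hy₁,
    pow_kills_pow_torsion (f' t₀) ht₀ e y₂ hy₂] at hpoly
  have e1 : f (t₀ ^ e * (X ℓ₀ - C ((ℓ₀ : ℤ) + 1))) y =
      f (t₀ ^ e) (heckeOperatorBar (M * q) ⟨ℓ₀, hℓ₀⟩ y - (ℓ₀ + 1) • y) := by
    rw [map_mul, Module.End.mul_apply, map_sub, LinearMap.sub_apply, hf, TJ_of_good hℓ₀ hℓ₀S,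
      eq_intCast (C : ℤ →+* MvPolynomial ℕ ℤ) ((ℓ₀ : ℤ) + 1), map_intCast,
      Module.End.intCast_apply]
    congr 2
  rw [e1]
  exact isToric_of_tri hqM A hA h49 h hm S hS' hpoly

include hA h49 hp hpq in
/-- **(KEY-GEO)** : the body of `RIB.Key.KeyGeo` (`RIB/Key/Cor.lean`), with `a = e`. -/
theorem key_geo_of_fd (hFD : ∀ e : ℕ, FD0Hyp hqM A (p ^ e)) {σ : GQ} (hσ : A.IsFrobeniusAt σ q)
    (S : Set ℕ) (hS : ∀ ℓ : ℕ, ℓ.Prime → ℓ ∉ S → ¬ ℓ ∣ M * q)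
    (f : MvPolynomial ℕ ℤ →+* Module.End ℤ (JZero (M * q))) (hf : ∀ ℓ, f (X ℓ) = TJ (M * q) S ℓ)
    (f' : MvPolynomial ℕ ℤ →+* Module.End ℤ (JZero M)) (hf' : ∀ ℓ, f' (X ℓ) = TJ M S ℓ)
    (t₀ : MvPolynomial ℕ ℤ) (ht₀ : ∀ x : JZero M, p • x = 0 → f' t₀ x = 0)
    (ℓ₀ : ℕ) (hℓ₀ : ℓ₀.Prime) (hℓ₀S : ℓ₀ ∉ S) (e : ℕ)
    (y : JZero (M * q)) (hy : p ^ e • y = 0) (hI : ∀ τ ∈ A.inertiaSubgroupIn ℚ, τ • y = y) :
    ∃ a : ℕ, σ • (f (t₀ ^ a * (X ℓ₀ - C ((ℓ₀ : ℤ) + 1))) y) +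
      q • (swAut hqM • (f (t₀ ^ a * (X ℓ₀ - C ((ℓ₀ : ℤ) + 1))) y)) = 0 :=
  ⟨e, frob_smul_of_isToric hqM A h49 hA hp hpq e hσ
    (isToric_poly hqM A hA h49 hp hpq S hS f hf f' hf' t₀ ht₀ ℓ₀ hℓ₀ hℓ₀S e (hFD e) y hy hI)⟩

end Main

end Fermat.Agent.RIB.Key
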