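import Fermat.Agent.RIB.Key.ThetaAlg
import Fermat.Agent.RIB.Main.Defs
import Fermat.Agent.SS.Swap.Mod
import Fermat.Agent.S40.Kill.Eigen

/-!
# RIB / KEY : the consumer form of (KEY) on the `θ`-part   (board #2250 (3))

`KeyGeo hqM p A σ` is the geometric statement KEY-GEO (board #2146; only its last conjunct is used).

`key_theta` : level `L = L' * q` (`L` a VARIABLE), `W(L') = 0`, `θ` not Eisenstein at `ℓ₀`.  Then there is an involution `w` of `J₀(L)`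
commuting with `G_ℚ`, preserving the `θ`-part, such that `σ x + q w x = 0` for all `I_q`-fixed `x` of the `θ`-part.
-/

set_option autoImplicit false

noncomputable section

open AlgebraicCurve ModularCurve MvPolynomial

namespace Fermat.Agent.RIB.Key

open Fermat.Agent.GAL Fermat.Agent.GAL.PC Fermat.Agent.S40 Fermat.Agent.S40.Kill Fermat.Agent.SS

local notation "Qbar" => AlgebraicClosure ℚ
local notation "GQ" => (AlgebraicClosure ℚ ≃ₐ[ℚ] AlgebraicClosure ℚ)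

/-- **KEY-GEO** (statement): after applying `t₀ ^ a (T_{ℓ₀} - ℓ₀ - 1)`, an `I_q`-fixed class of `p`-power order satisfies
`σ z + q w_q z = 0`. -/
def KeyGeo {M q : ℕ} [NeZero M] [Fact q.Prime] (hqM : ¬ q ∣ M) (p : ℕ)
    (A : ValuationSubring Qbar) (σ : GQ) : Prop :=
  ∀ (S : Set ℕ), (∀ ℓ : ℕ, ℓ.Prime → ℓ ∉ S → ¬ ℓ ∣ M * q) →
  ∀ (f : MvPolynomial ℕ ℤ →+* Module.End ℤ (JZero (M * q))), (∀ ℓ, f (X ℓ) = TJ (M * q) S ℓ) →
  ∀ (f' : MvPolynomial ℕ ℤ →+* Module.End ℤ (JZero M)), (∀ ℓ, f' (X ℓ) = TJ M S ℓ) →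
  ∀ (t₀ : MvPolynomial ℕ ℤ), (∀ x : JZero M, p • x = 0 → f' t₀ x = 0) →
  ∀ (ℓ₀ : ℕ), ℓ₀.Prime → ℓ₀ ∉ S → ∀ (e : ℕ) (y : JZero (M * q)), p ^ e • y = 0 →
    (∀ τ ∈ A.inertiaSubgroupIn ℚ, τ • y = y) →
    ∃ a : ℕ, σ • (f (t₀ ^ a * (X ℓ₀ - C ((ℓ₀ : ℤ) + 1))) y) +
      q • (swAut hqM • (f (t₀ ^ a * (X ℓ₀ - C ((ℓ₀ : ℤ) + 1))) y)) = 0

section Comm

variable {N p : ℕ} [NeZero N] {S : Set ℕ}

/-- an additive map commuting with the `T_ℓ` on `p`-power torsion commutes with the Hecke polynomials there. -/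
theorem comm_poly (f : MvPolynomial ℕ ℤ →+* Module.End ℤ (JZero N))
    (hf : ∀ ℓ, f (X ℓ) = TJ N S ℓ) (u : JZero N →+ JZero N)
    (hu : ∀ r : Nat.Primes, (r : ℕ) ∉ S → ∀ x ∈ ptors (JZero N) p,
      u (heckeOperatorBar N r x) = heckeOperatorBar N r (u x))
    (P : MvPolynomial ℕ ℤ) (x : JZero N) (hx : x ∈ ptors (JZero N) p) :
    u (f P x) = f P (u x) := by
  induction P using MvPolynomial.induction_on generalizing x with
  | C a =>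
    rw [eq_intCast (C : ℤ →+* MvPolynomial ℕ ℤ) a, map_intCast, Module.End.intCast_apply,
      Module.End.intCast_apply, map_zsmul]
  | add P Q hP hQ => rw [map_add, LinearMap.add_apply, LinearMap.add_apply, map_add, hP x hx, hQ x hx]
  | mul_X P ℓ hP =>
    rw [map_mul, Module.End.mul_apply, Module.End.mul_apply, hf]
    have h1 : TJ N S ℓ x ∈ ptors (JZero N) p := map_mem_ptors (TJ N S ℓ).toAddMonoidHom hx
    rw [hP _ h1]
    congr 1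
    by_cases h : ℓ.Prime ∧ ℓ ∉ S
    · rw [TJ_of_good h.1 h.2]
      exact hu ⟨ℓ, h.1⟩ h.2 x hx
    · rw [TJ_of_bad h, LinearMap.zero_apply, LinearMap.zero_apply, map_zero]

end Comm

/-- (KEY) on the `θ`-part, level `M * q`. -/
theorem key_theta_aux {M q p : ℕ} [NeZero M] [Fact q.Prime] (hqM : ¬ q ∣ M) (hp : p.Prime)
    (A : ValuationSubring Qbar) (σ : GQ) (hgeo : KeyGeo hqM p A σ)
    (S : Set ℕ) (hS : ∀ ℓ : ℕ, ℓ.Prime → ℓ ∉ S → ¬ ℓ ∣ M * q * p) (θ : ℕ → ℤ)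
    (h0 : WS M p S θ = ⊥) (ℓ₀ : ℕ) (hℓ₀ : ℓ₀.Prime) (hℓ₀S : ℓ₀ ∉ S)
    (hne : ¬ (p : ℤ) ∣ θ ℓ₀ - ((ℓ₀ : ℤ) + 1)) :
    ∃ w : JZero (M * q) →+ JZero (M * q), (∀ x, w (w x) = x) ∧
      (∀ (g : GQ) x, w (g • x) = g • w x) ∧
      (∀ x ∈ thetaPart (M * q) p S θ, w x ∈ thetaPart (M * q) p S θ) ∧
      ∀ x ∈ thetaPart (M * q) p S θ, (∀ τ ∈ A.inertiaSubgroupIn ℚ, τ • x = x) →
        σ • x + q • w x = 0 := by
  set w : JZero (M * q) →+ JZero (M * q) :=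
    DistribSMul.toAddMonoidHom (JZero (M * q)) (swAut hqM) with hw
  have hwg : ∀ (g : GQ) x, w (g • x) = g • w x := fun g x => (gal_smul_swAut_smul hqM g x).symm
  have hS2 : ∀ r : ℕ, r.Prime → r ∉ S → ¬ r ∣ M * q * p ∧ ¬ r ∣ M * q * p :=
    fun r hr hrS => ⟨hS r hr hrS, hS r hr hrS⟩
  have hwθ : ∀ x ∈ thetaPart (M * q) p S θ, w x ∈ thetaPart (M * q) p S θ := fun x hx =>
    map_mem_thetaPart_of_equivariant w hwg hS2 hx
  refine ⟨w, fun x => swAut_smul_swAut_smul hqM x, hwg, hwθ, fun x hx hI => ?_⟩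
  obtain ⟨f, hf⟩ := exists_polyJ (M * q) S
  obtain ⟨f', hf'⟩ := exists_polyJ M S
  obtain ⟨t₀, ht₀, ht1⟩ := exists_oldKiller (θ := θ) hp.ne_zero f' hf' (fun y hy hpy => by
    have : y ∈ WS M p S θ := ⟨hy, hpy⟩
    rw [h0] at this
    exact this)
  obtain ⟨e, he⟩ := hx.1
  obtain ⟨a, ha⟩ := hgeo S (fun ℓ hℓ hℓS hd => hS ℓ hℓ hℓS (hd.mul_right p)) f hf f' hf' t₀ ht₀
    ℓ₀ hℓ₀ hℓ₀S e x he hI
  set P : MvPolynomial ℕ ℤ := t₀ ^ a * (X ℓ₀ - C ((ℓ₀ : ℤ) + 1)) with hP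
  have hPc : aeval (cutS S θ) P = θ ℓ₀ - ((ℓ₀ : ℤ) + 1) := by
    rw [hP, map_mul, map_pow, ht1, one_pow, one_mul, map_sub, aeval_X, cutS_of_good hℓ₀ hℓ₀S,
      aeval_C]
    rfl
  -- the operator `E = σ + q w`
  set E : JZero (M * q) →+ JZero (M * q) :=
    DistribSMul.toAddMonoidHom (JZero (M * q)) σ + q • w with hE
  have hEapp : ∀ z, E z = σ • z + q • w z := fun z => rfl
  have hEθ : E x ∈ thetaPart (M * q) p S θ := by
    rw [hEapp]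
    exact (thetaPart (M * q) p S θ).add_mem (smul_mem_thetaPart σ hx)
      ((thetaPart (M * q) p S θ).nsmul_mem (hwθ x hx) q)
  have hcomm : E (f P x) = f P (E x) := by
    refine comm_poly (p := p) f hf E (fun r hr y hy => ?_) P x hx.1
    have h1 : w (heckeOperatorBar (M * q) r y) = heckeOperatorBar (M * q) r (w y) :=
      SS.map_hecke_of_equivariant (SS.es_all (M * q) p).2 (SS.es_all (M * q) p).2 w hwg r
        (hS r r.2 hr) (hS r r.2 hr) y hy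
    rw [hEapp, hEapp, h1, map_add, map_nsmul]
    congr 1
    exact galHecke (M * q) r σ y
  have := eq_zero_of_comm (θ := θ) hp f hf P (by rw [hPc]; exact hne) E hEθ hcomm
    (by rw [hEapp]; exact ha)
  rw [← hEapp]
  exact this

/-- **(KEY) on the `θ`-part**, the level is a variable. -/
theorem key_theta {L L' q p : ℕ} [NeZero L] [NeZero L'] [Fact q.Prime] (hL : L = L' * q)
    (hqL : ¬ q ∣ L') (hp : p.Prime) (A : ValuationSubring Qbar) (σ : GQ)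
    (hgeo : KeyGeo hqL p A σ)
    (S : Set ℕ) (hS : ∀ ℓ : ℕ, ℓ.Prime → ℓ ∉ S → ¬ ℓ ∣ L * p) (θ : ℕ → ℤ)
    (h0 : WS L' p S θ = ⊥) (ℓ₀ : ℕ) (hℓ₀ : ℓ₀.Prime) (hℓ₀S : ℓ₀ ∉ S)
    (hne : ¬ (p : ℤ) ∣ θ ℓ₀ - ((ℓ₀ : ℤ) + 1)) :
    ∃ w : JZero L →+ JZero L, (∀ x, w (w x) = x) ∧
      (∀ (g : GQ) x, w (g • x) = g • w x) ∧
      (∀ x ∈ thetaPart L p S θ, w x ∈ thetaPart L p S θ) ∧
      ∀ x ∈ thetaPart L p S θ, (∀ τ ∈ A.inertiaSubgroupIn ℚ, τ • x = x) →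
        σ • x + q • w x = 0 := by
  subst hL
  exact key_theta_aux hqL hp A σ hgeo S hS θ h0 ℓ₀ hℓ₀ hℓ₀S hne

end Fermat.Agent.RIB.Key
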