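import Fermat.Agent.SSP.FD0B

/-!
# RIB / Key / FD : the two-letter version of the layer `SSP/FD`, `SSP/FD0B`   ((K3) of (KEY_q))

Same statements and proofs as `SSP.node_decomp`, `SSP.node_dvd`, `SSP.fd0B`, but the residue characteristic `q`
(`SlopeFn 𝒢 q s`, scaling by the powers of `(q : F)`) and the exponent `m` (`div f = m D`) are two different letters.
`SSP.good_dvd` and `SSP.LocEqs` do not mention the residue characteristic: they are used as they are.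
-/

set_option autoImplicit false

open AlgebraicCurve

namespace Fermat.Agent.RIB.Key

open Fermat.Agent.RED Fermat.Agent.S24 Fermat.Agent.SS Fermat.Agent.SSP

variable {K F k Fb : Type*} [Field K] [Field F] [Algebra K F] [Field k] [Field Fb] [Algebra k Fb]
variable {T : TwoRed K F k Fb} {𝒩 : NodalData T} (𝒢 : Geo 𝒩)

/-- the local structure at a node -/
theorem node_decomp2 {q p : ℕ} {s : F} (hs : SlopeFn 𝒢 q s) {f : F} (hf1 : T.R₁.O.valuation f = 1)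
    (D : Divisor K F) (hD : ∀ P : Place K F, P.ord f = p * D P) (e : 𝒩.S) {h : F}
    (hh1 : T.R₁.O.valuation h = 1) (hhD : ∀ P, 𝒢.Near e P → P.ord h = D P) :
    ∃ (a : ℤ) (U : F), f = U * s ^ a * h ^ p ∧ T.R₁.O.valuation U = 1 ∧ T.R₂.O.valuation U = 1 ∧
      (∀ P, 𝒢.Near e P → P.ord U = 0) ∧
      (𝒩.x₁ e).ord (rd₁ T f) = a + p * (𝒩.x₁ e).ord (rd₁ T h) := by
  have H1 := 𝒢.red₁
  have hf0 : f ≠ 0 := ne_zero_of_val_one hf1
  have hs0 : s ≠ 0 := ne_zero_of_val_one hs.val₁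
  have hh0 : h ≠ 0 := ne_zero_of_val_one hh1
  set w : F := f * (h ^ p)⁻¹ with hw
  have hw1 : T.R₁.O.valuation w = 1 :=
    val_mul_eq_one hf1 (val_inv_eq_one (val_pow_eq_one hh1 p))
  have hw0 : w ≠ 0 := ne_zero_of_val_one hw1
  have hrdw : rd₁ T w = rd₁ T f * (rd₁ T h ^ p)⁻¹ := by
    rw [rd₁, hw, rd_mul (mem_of_val_le hf1.le)
      (mem_of_val_le (val_inv_eq_one (val_pow_eq_one hh1 p)).le),
      rdOn_inv H1 (val_pow_eq_one hh1 p), rd_pow (mem_of_val_le hh1.le)]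
  set a : ℤ := (𝒩.x₁ e).ord (rd₁ T w) with ha
  set U : F := w * (s ^ a)⁻¹ with hU
  have hU1 : T.R₁.O.valuation U = 1 :=
    val_mul_eq_one hw1 (val_inv_eq_one (val_zpow_eq_one hs.val₁ a))
  have hrdU : rd₁ T U = rd₁ T w * (rd₁ T s ^ a)⁻¹ := by
    rw [rd₁, hU, rd_mul (mem_of_val_le hw1.le)
      (mem_of_val_le (val_inv_eq_one (val_zpow_eq_one hs.val₁ a)).le),
      rdOn_inv H1 (val_zpow_eq_one hs.val₁ a), rdOn_zpow H1 hs.val₁]
  have hordU : (𝒩.x₁ e).ord (rd₁ T U) = 0 := by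
    rw [hrdU, Place.ord_mul _ (H1.rd_ne_zero hw1)
      (inv_ne_zero (zpow_ne_zero _ (H1.rd_ne_zero hs.val₁))), Place.ord_inv, Place.ord_zpow,
      hs.ord₁ e, ← ha]
    ring
  have hUnear : ∀ P, 𝒢.Near e P → P.ord U = 0 := by
    intro P hP
    rw [hU, hw, Place.ord_mul _ (mul_ne_zero hf0 (inv_ne_zero (pow_ne_zero _ hh0)))
      (inv_ne_zero (zpow_ne_zero _ hs0)), Place.ord_mul _ hf0 (inv_ne_zero (pow_ne_zero _ hh0)),
      Place.ord_inv, Place.ord_inv, Place.ord_zpow, Place.ord_pow, hs.near e P hP, hD,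
      hhD P hP]
    ring
  have hU2 : T.R₂.O.valuation U = 1 := 𝒢.unit₂_of_unit₁ e hU1 hUnear hordU
  refine ⟨a, U, ?_, hU1, hU2, hUnear, ?_⟩
  · rw [hU, hw]
    field_simp
  · rw [ha, hrdw, Place.ord_mul _ (H1.rd_ne_zero hf1)
      (inv_ne_zero (pow_ne_zero _ (H1.rd_ne_zero hh1))), Place.ord_inv, Place.ord_pow]
    ring

theorem node_dvd2 {q p : ℕ} (hp : p ≠ 0) {s : F} (hs : SlopeFn 𝒢 q s) {f : F}
    (hf1 : T.R₁.O.valuation f = 1) (hf2 : T.R₂.O.valuation f = 1) (e : 𝒩.S) {h U : F} {a : ℤ}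
    (hh1 : T.R₁.O.valuation h = 1) (hfU : f = U * s ^ a * h ^ p) (hU1 : T.R₁.O.valuation U = 1)
    (hU2 : T.R₂.O.valuation U = 1) (hU : ∀ P, 𝒢.Near e P → P.ord U = 0) (ha : (p : ℤ) ∣ a) :
    (p : ℤ) ∣ (𝒩.x₁ e).ord (rd₁ T f) ∧ (p : ℤ) ∣ (𝒩.x₂ e).ord (rd₂ T f) := by
  have H1 := 𝒢.red₁
  have H2 := 𝒢.red₂
  obtain ⟨a', rfl⟩ := ha
  have hs0 : s ≠ 0 := ne_zero_of_val_one hs.val₁
  set g : F := s ^ a' * h with hg
  have hfg : f = U * g ^ p := by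
    rw [hfU, hg, mul_pow, ← zpow_natCast (s ^ a') p, ← zpow_mul, mul_comm a' (p : ℤ), mul_assoc]
  have hg1 : T.R₁.O.valuation g = 1 := val_mul_eq_one (val_zpow_eq_one hs.val₁ a') hh1
  have hg2 : T.R₂.O.valuation g = 1 := by
    have h1 : T.R₂.O.valuation g ^ p = 1 := by
      have h2 := hf2
      rw [hfg, map_mul, hU2, one_mul, map_pow] at h2
      exact h2
    exact (pow_eq_one_iff.1 h1).resolve_right hp
  obtain ⟨hz1, hz2⟩ := 𝒢.ord₂_eq_zero_of_unit e hU1 hU2 hU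
  constructor
  · refine ⟨(𝒩.x₁ e).ord (rd₁ T g), ?_⟩
    rw [hfg, rd₁, rd_mul (mem_of_val_le hU1.le) (mem_of_val_le (val_pow_eq_one hg1 p).le),
      rd_pow (mem_of_val_le hg1.le), Place.ord_mul _ (H1.rd_ne_zero hU1)
      (pow_ne_zero _ (H1.rd_ne_zero hg1)), Place.ord_pow]
    rw [rd₁] at hz1
    rw [hz1, zero_add]
  · refine ⟨(𝒩.x₂ e).ord (rd₂ T g), ?_⟩
    rw [hfg, rd₂, rd_mul (mem_of_val_le hU2.le) (mem_of_val_le (val_pow_eq_one hg2 p).le),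
      rd_pow (mem_of_val_le hg2.le), Place.ord_mul _ (H2.rd_ne_zero hU2)
      (pow_ne_zero _ (H2.rd_ne_zero hg2)), Place.ord_pow]
    rw [rd₂] at hz2
    rw [hz2, zero_add]


/-- the node case of `fd0B2` -/
theorem fd0B2_node {q m : ℕ} (hm : m ≠ 0) (hq₂ : T.R₂.O.valuation (q : F) < 1) {Rat : Subfield F}
    (scale₁ : ∀ u ∈ Rat, u ≠ 0 → ∃ n : ℤ, T.R₁.O.valuation (u * ((q : F) ^ n)⁻¹) = 1)
    (scale₂ : ∀ u ∈ Rat, u ≠ 0 → ∃ n : ℤ, T.R₂.O.valuation (u * ((q : F) ^ n)⁻¹) = 1)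
    {s : F} (hs : SlopeFn 𝒢 q s) {f : F}
    (hf1 : T.R₁.O.valuation f = 1) (hf2 : T.R₂.O.valuation f = 1)
    (D : Divisor K F) (hD : ∀ P : Place K F, P.ord f = m * D P) (hloc : LocEqs 𝒢 Rat D) (e : 𝒩.S) :
    (m : ℤ) ∣ (𝒩.x₁ e).ord (rd₁ T f) ∧ (m : ℤ) ∣ (𝒩.x₂ e).ord (rd₂ T f) := by
  have hqF : (q : F) ≠ 0 := by
    intro h0
    have := hs.val₂
    rw [h0, inv_zero, mul_zero, map_zero] at this
    exact zero_ne_one this
  have hqK : (q : K) ≠ 0 := by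
    intro h0
    apply hqF
    rw [← map_natCast (algebraMap K F), h0, map_zero]
  have hqR : (q : F) ∈ Rat := natCast_mem Rat q
  obtain ⟨h, hhR, hh0, hhD⟩ := hloc.node e
  obtain ⟨n₁, hn₁⟩ := scale₁ h hhR hh0
  set h' : F := h * ((q : F) ^ n₁)⁻¹ with hh'
  have hh'R : h' ∈ Rat := mul_mem hhR (inv_mem (zpow_mem hqR n₁))
  have hh'0 : h' ≠ 0 := mul_ne_zero hh0 (inv_ne_zero (zpow_ne_zero _ hqF))
  have hh'ord : ∀ P : Place K F, P.ord h' = P.ord h := by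
    intro P
    have : ((q : F) ^ n₁)⁻¹ = algebraMap K F (((q : K) ^ n₁)⁻¹) := by
      rw [map_inv₀, map_zpow₀, map_natCast]
    rw [hh', this]
    exact ord_mul_const P h (inv_ne_zero (zpow_ne_zero _ hqK))
  obtain ⟨n₂, hn₂⟩ := scale₂ h' hh'R hh'0
  obtain ⟨a, U, hfU, hU1, hU2, hUn, -⟩ := node_decomp2 𝒢 hs hf1 D hD e hn₁
    (fun P hP => by rw [hh'ord, hhD P hP])
  refine node_dvd2 𝒢 hm hs hf1 hf2 e hn₁ hfU hU1 hU2 hUn ?_
  set v := T.R₂.O.valuation with hv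
  have hvq0 : v (q : F) ≠ 0 := (Valuation.ne_zero_iff _).2 hqF
  have hvs : v s = v (q : F) := by
    have := hs.val₂
    rw [← hv, map_mul, map_inv₀] at this
    exact (mul_inv_eq_one₀ hvq0).1 this
  have hvh : v h' = v (q : F) ^ n₂ := by
    rw [map_mul, map_inv₀, map_zpow₀] at hn₂
    exact (mul_inv_eq_one₀ (zpow_ne_zero _ hvq0)).1 hn₂
  have h1 : v (q : F) ^ (a + n₂ * m) = 1 := by
    have h3 : v f = v U * v s ^ a * v h' ^ m := by
      rw [hfU, map_mul, map_mul, map_zpow₀, map_pow]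
    rw [zpow_add₀ hvq0, zpow_mul, zpow_natCast, ← hvh, ← hvs, ← hf2, h3, hU2, one_mul]
  have h2 := fd0B_zpow_aux hq₂ h1
  exact ⟨-n₂, by linarith⟩

/-- **(FD0-B), two letters** : `f` a unit for both valuations, `div f = m D`, `D` has local equations in a subfield `Rat` whose
nonzero elements have valuations in `v(q) ^ ℤ` (functions fixed by the inertia group at `q`).  Then the divisors of the two
reductions of `f` are divisible by `m`, at ALL places (nodes included). -/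
theorem fd0B2 {q m : ℕ} (hm : m ≠ 0) (hq₂ : T.R₂.O.valuation (q : F) < 1) {Rat : Subfield F}
    (scale₁ : ∀ u ∈ Rat, u ≠ 0 → ∃ n : ℤ, T.R₁.O.valuation (u * ((q : F) ^ n)⁻¹) = 1)
    (scale₂ : ∀ u ∈ Rat, u ≠ 0 → ∃ n : ℤ, T.R₂.O.valuation (u * ((q : F) ^ n)⁻¹) = 1)
    {s : F} (hs : SlopeFn 𝒢 q s) {f : F}
    (hf1 : T.R₁.O.valuation f = 1) (hf2 : T.R₂.O.valuation f = 1)
    (D : Divisor K F) (hD : ∀ P : Place K F, P.ord f = m * D P) (hloc : LocEqs 𝒢 Rat D) :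
    (∀ Q : Place k Fb, (m : ℤ) ∣ Q.ord (rd₁ T f)) ∧ ∀ Q : Place k Fb, (m : ℤ) ∣ Q.ord (rd₂ T f) := by
  have hnode := fd0B2_node 𝒢 hm hq₂ scale₁ scale₂ hs hf1 hf2 D hD hloc
  refine ⟨fun Q => ?_, fun Q => ?_⟩
  · by_cases hQ : Q ∈ Set.range 𝒩.x₁
    · obtain ⟨e, rfl⟩ := hQ
      exact (hnode e).1
    · obtain ⟨h, -, hh0, hhD⟩ := hloc.good₁ Q hQ
      exact good_dvd 𝒢.red₁ hf1 D hD hQ hh0 hhD
  · by_cases hQ : Q ∈ Set.range 𝒩.x₂
    · obtain ⟨e, rfl⟩ := hQ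
      exact (hnode e).2
    · obtain ⟨h, -, hh0, hhD⟩ := hloc.good₂ Q hQ
      exact good_dvd 𝒢.red₂ hf2 D hD hQ hh0 hhD

end Fermat.Agent.RIB.Key
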