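import Fermat.Agent.SSP.Mod.Main
import Fermat.Agent.RIB.Key.FD

/-!
# RIB / Key / FDMod : (K3) = [FD0-MOD] : the two-letter (FD0-B) at the level `M * q`

`q` = level prime = residue characteristic of `A`, `m ≠ 0` the exponent.  `T = TT hqM A = SS.twoRed hqM (residue A) residue_surjective`.
`f` fixed by the inertia group `I` of `A`, `div f = m E`, `f` a unit for both valuations  ⟹  `m ∣ ord_Q (rd_i T f)` for ALL places `Q`
of `Fb`, `i = 1, 2`.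

Everything is `SSP/Mod/Main.lean` (`geoM`, `slopeFn_mod`, `scale0_mod`, `val₂_p_lt`, `rat_mod`) + `RIB.Key.fd0B2`; only
`locEqs_mod` has to be copied with the exponent `m`.
-/

set_option autoImplicit false
set_option linter.unusedSectionVars false

noncomputable section

open AlgebraicCurve ModularCurve IsLocalRing

namespace Fermat.Agent.RIB.Key

open Fermat.Agent.RED hiding Kb
open Fermat.Agent.S24 Fermat.Agent.SS Fermat.Agent.ND Fermat.Agent.SSP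
open Fermat.Agent.RED.Cusp (Fb jb)

variable {M q : ℕ} [NeZero M] [hq : Fact q.Prime] (hqM : ¬ q ∣ M)
variable (A : ValuationSubring Kb) [CharP (ResidueField A) q] [IsAlgClosed (ResidueField A)]
variable {M₀ : ℕ} [NeZero M₀] (D : S36.Wt1 M₀) (hM : M₀ ∣ M)

include D hM in
/-- local equations at the level `M * q`, exponent `m` -/
theorem locEqs_mod2 (hA : A.LiesOverPrime q) (𝒩 : NodalData (TT hqM A))
    (hP : 𝒩.P = polarDiv Kb (jF (M * q)))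
    (hcompat : ∀ σ ∈ A.inertiaSubgroupIn ℚ, IsCompat 𝒩 (gal (M * q) σ) 1) (s₀ : 𝒩.S)
    (H' : Subgroup GQ) (hH' : H' ≤ A.inertiaSubgroupIn ℚ) {m : ℕ} (hm : m ≠ 0) {f : FN (M * q)}
    (hf : f ∈ ratH (M * q) H') (E : Divisor Kb (FN (M * q)))
    (hE : ∀ P : Place Kb (FN (M * q)), P.ord f = m * E P) :
    LocEqs (geoM hqM A 𝒩 s₀) (ratH (M * q) H') E := by
  have hqF : (q : FN (M * q)) ≠ 0 := by
    rw [natCast_eq_algebraMap]; simpa using (p_ne_zero_Kb (p := q))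
  refine locEqs_of_rat _ _ s₀ (rat_mod hqM A hA 𝒩 hcompat)
    (H'.map (arithmeticGalois (modularFunctionFieldFull (M * q)))) ?_ hqF (val₁_p_lt hqM A hA)
    (slopeFn_mod hqM A D hM hA 𝒩 hP hcompat s₀) ?_ _ ?_ E ?_
  · rintro g ⟨σ, hσ, rfl⟩
    exact ⟨σ, hH' hσ, rfl⟩
  · rintro g ⟨σ, hσ, rfl⟩
    exact gal_smul_sF D hM σ
  · intro u hu σ hσ
    exact hu _ ⟨σ, hσ, rfl⟩
  · rintro g ⟨σ, hσ, rfl⟩
    exact smul_divisor_of_smul_eq hm (hf σ hσ) hE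

include D hM in
theorem fd0B2_mod_aux (hA : A.LiesOverPrime q) (𝒩 : NodalData (TT hqM A))
    (hP : 𝒩.P = polarDiv Kb (jF (M * q)))
    (hcompat : ∀ σ ∈ A.inertiaSubgroupIn ℚ, IsCompat 𝒩 (gal (M * q) σ) 1)
    {m : ℕ} (hm : m ≠ 0)
    {f : FN (M * q)} (hf : ∀ σ ∈ A.inertiaSubgroupIn ℚ, gal (M * q) σ • f = f)
    (hf1 : (TT hqM A).R₁.O.valuation f = 1) (hf2 : (TT hqM A).R₂.O.valuation f = 1)
    (E : Divisor Kb (FN (M * q))) (hE : ∀ P : Place Kb (FN (M * q)), P.ord f = m * E P) :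
    (∀ Q : Place (ResidueField A) (Fb (ResidueField A) M), (m : ℤ) ∣ Q.ord (rd₁ (TT hqM A) f)) ∧
    ∀ Q : Place (ResidueField A) (Fb (ResidueField A) M), (m : ℤ) ∣ Q.ord (rd₂ (TT hqM A) f) := by
  obtain ⟨s₀⟩ :=
    ND.exists_node (𝒩 := 𝒩) (RB.isSepParam_jF (M * q))
      (Cusp.isSepParam_jb M (ResidueField A) q hqM)
  have hsc := scale0_mod hqM A D hM hA
  simp only [← natCast_eq_algebraMap] at hsc
  exact fd0B2 (geoM hqM A 𝒩 s₀) hm (val₂_p_lt hqM A hA) hsc.1 hsc.2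
    (slopeFn_mod hqM A D hM hA 𝒩 hP hcompat s₀) hf1 hf2 E hE
    (locEqs_mod2 hqM A D hM hA 𝒩 hP hcompat s₀ _ le_rfl hm hf E hE)

/-- **(K3) = [FD0-MOD]** : the two-letter (FD0-B) at the (rigid) level `M * q`. -/
theorem fd0B2_mod (h49 : 4 ∣ M ∨ 9 ∣ M) (hA : A.LiesOverPrime q) {m : ℕ} (hm : m ≠ 0)
    {f : FN (M * q)} (hf : ∀ σ ∈ A.inertiaSubgroupIn ℚ, gal (M * q) σ • f = f)
    (hf1 : (TT hqM A).R₁.O.valuation f = 1) (hf2 : (TT hqM A).R₂.O.valuation f = 1)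
    (E : Divisor Kb (FN (M * q))) (hE : ∀ P : Place Kb (FN (M * q)), P.ord f = m * E P) :
    (∀ Q : Place (ResidueField A) (Fb (ResidueField A) M), (m : ℤ) ∣ Q.ord (rd₁ (TT hqM A) f)) ∧
    ∀ Q : Place (ResidueField A) (Fb (ResidueField A) M), (m : ℤ) ∣ Q.ord (rd₂ (TT hqM A) f) := by
  obtain ⟨-, 𝒩, -, -, hP, -, -, -, -, -, hcompat, -⟩ := exists_nodalData_fixed hqM A h49 hA
  rcases h49 with h | h
  · exact fd0B2_mod_aux hqM A S36.wt1Four h hA 𝒩 hP hcompat hm hf hf1 hf2 E hE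
  · exact fd0B2_mod_aux hqM A S36.wt1Nine h hA 𝒩 hP hcompat hm hf hf1 hf2 E hE

end Fermat.Agent.RIB.Key
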