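import Fermat.Agent.RIB.Key.Geo
import Fermat.Agent.RIB.Key.FDMod
import Fermat.Agent.RIB.Key.Cor

/-!
# RIB / KEY : (KEY-GEO) and (KEY), final forms

* `key_geo`   : `KeyGeo hqM p A σ` at a rigid level `M` (`4 ∣ M` or `9 ∣ M`), `q ∤ M`, `p ≠ q`, `A ∣ q`, `σ` a Frobenius at `A`.
* `key_final` : the consumer form (`key_theta` of `RIB/Key/Cor.lean` with `KeyGeo` discharged): level `L = L' * q` (`L` a variable),
  `W(L') = 0`, `θ` not Eisenstein at `ℓ₀` : there is an involution `w` of `J₀(L)` commuting with `G_ℚ`, preserving the `θ`-part, with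
  `σ x + q w x = 0` for all `I_q`-fixed `x` of the `θ`-part.
-/

set_option autoImplicit false
set_option linter.style.haveILetI false

noncomputable section

open AlgebraicCurve ModularCurve IsLocalRing

namespace Fermat.Agent.RIB.Key

open Fermat.Agent.RED hiding Kb
open Fermat.Agent.S24 Fermat.Agent.RED.TorsES Fermat.Agent.SS Fermat.Agent.SSP
open Fermat.Agent.GAL Fermat.Agent.GAL.PC Fermat.Agent.S40

/-- [FD0-MOD] in the form used by `Geo.lean`. -/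
theorem fd0Hyp_mod {M q : ℕ} [NeZero M] [Fact q.Prime] (hqM : ¬ q ∣ M)
    (A : ValuationSubring Kb) [CharP (ResidueField A) q] [IsAlgClosed (ResidueField A)]
    (h49 : 4 ∣ M ∨ 9 ∣ M) (hA : A.LiesOverPrime q) {m : ℕ} (hm : m ≠ 0) : FD0Hyp hqM A m :=
  fun D _ hD hfix h1 h2 => fd0B2_mod hqM A h49 hA hm hfix h1 h2 D (fun P => (hD.2 P).symm)

/-- **(KEY-GEO)** -/
theorem key_geo {M q : ℕ} [NeZero M] [hq : Fact q.Prime] (hqM : ¬ q ∣ M) (h49 : 4 ∣ M ∨ 9 ∣ M)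
    {p : ℕ} (hp : p.Prime) (hpq : p ≠ q) (A : ValuationSubring Kb) (hA : A.LiesOverPrime q)
    {σ : GQ} (hσ : A.IsFrobeniusAt σ q) : KeyGeo hqM p A σ := by
  haveI : IsAlgClosed (ResidueField A) := GalEq.isAlgClosed_residueField A
  haveI : CharP (ResidueField A) q := GalEq.charP_residueField hq.out hA
  intro S hS f hf f' hf' t₀ ht₀ ℓ₀ hℓ₀ hℓ₀S e y hy hI
  exact key_geo_of_fd hqM A hA h49 hp hpq
    (fun e => fd0Hyp_mod hqM A h49 hA (pow_ne_zero e hp.ne_zero)) hσ S hS f hf f' hf' t₀ ht₀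
    ℓ₀ hℓ₀ hℓ₀S e y hy hI

/-- **(KEY)**, consumer form. -/
theorem key_final {L L' q p : ℕ} [NeZero L] [NeZero L'] [Fact q.Prime] (hL : L = L' * q)
    (hqL : ¬ q ∣ L') (h49 : 4 ∣ L' ∨ 9 ∣ L') (hp : p.Prime) (hpq : p ≠ q)
    (A : ValuationSubring Kb) (hA : A.LiesOverPrime q) {σ : GQ} (hσ : A.IsFrobeniusAt σ q)
    (S : Set ℕ) (hS : ∀ ℓ : ℕ, ℓ.Prime → ℓ ∉ S → ¬ ℓ ∣ L * p) (θ : ℕ → ℤ)
    (h0 : WS L' p S θ = ⊥) (ℓ₀ : ℕ) (hℓ₀ : ℓ₀.Prime) (hℓ₀S : ℓ₀ ∉ S)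
    (hne : ¬ (p : ℤ) ∣ θ ℓ₀ - ((ℓ₀ : ℤ) + 1)) :
    ∃ w : JZero L →+ JZero L, (∀ x, w (w x) = x) ∧
      (∀ (g : GQ) x, w (g • x) = g • w x) ∧
      (∀ x ∈ thetaPart L p S θ, w x ∈ thetaPart L p S θ) ∧
      ∀ x ∈ thetaPart L p S θ, (∀ τ ∈ A.inertiaSubgroupIn ℚ, τ • x = x) →
        σ • x + q • w x = 0 :=
  key_theta hL hqL hp A σ (key_geo hqL h49 hp hpq A hA hσ) S hS θ h0 ℓ₀ hℓ₀ hℓ₀S hne

end Fermat.Agent.RIB.Key

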