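import Mathlib

/-!
# RIB / KEY-ALG : Hecke polynomials on generalised eigenspaces (Mathlib only)

`J` an abelian group, `f : ℤ[X_r] →+* End J` (the Hecke action), `c : ℕ → ℤ` a system of eigenvalues, `B r := f (X r - C (c r))`.

* `exists_common_eigen` : commuting locally nilpotent operators on a finite non zero stable subgroup have a common non zero
  kernel vector.
* `map_apply_of_eigen` : `f P w = P(c) • w` on a common eigenvector.
* `eq_zero_of_map_eq_zero` : **injectivity on the `θ`-part** : `P(c) ≢ 0 mod p`, `x` of `p`-power order in the generalised eigenspace,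
  `f P x = 0` ⇒ `x = 0`.
* `exists_killer` : **old-killer** : if the generalised eigenspace in the finite stable subgroup `Y` is zero, there is `t` with
  `t(c) = 1` and `f t = 0` on `Y`.
-/

set_option autoImplicit false

namespace Fermat.Agent.RIB.Key

open MvPolynomial

variable {J : Type*} [AddCommGroup J]

/-- commuting locally nilpotent operators on a finite non zero stable subgroup have a common non zero kernel vector. -/
theorem exists_common_eigen {ι : Type*} (B : ι → Module.End ℤ J) (hB : ∀ i j, B i * B j = B j * B i)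
    (Y : AddSubgroup J) (hfin : (Y : Set J).Finite) (hst : ∀ i, ∀ y ∈ Y, B i y ∈ Y)
    (hnil : ∀ i, ∀ y ∈ Y, ∃ m : ℕ, (B i ^ m) y = 0) (hne : ∃ y ∈ Y, y ≠ 0) :
    ∃ w ∈ Y, w ≠ 0 ∧ ∀ i, B i w = 0 := by
  induction hn : (Y : Set J).ncard using Nat.strong_induction_on generalizing Y with
  | _ n ih =>
    by_cases hall : ∀ i, ∀ y ∈ Y, B i y = 0
    · obtain ⟨y, hy, hy0⟩ := hne
      exact ⟨y, hy, hy0, fun i => hall i y hy⟩
    · push Not at hall
      obtain ⟨i, y, hy, hiy⟩ := hall
      let Y' : AddSubgroup J := Y ⊓ (B i).toAddMonoidHom.ker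
      have hY'le : (Y' : Set J) ⊆ Y := fun z hz => hz.1
      have hlt : (Y' : Set J).ncard < n := by
        rw [← hn]
        refine Set.ncard_lt_ncard ⟨hY'le, fun h => hiy ?_⟩ hfin
        exact (h hy).2
      have hne' : ∃ z ∈ Y', z ≠ 0 := by
        obtain ⟨m, hm⟩ := hnil i y hy
        classical
        have hex : ∃ m, (B i ^ m) y = 0 := ⟨m, hm⟩
        set m₀ := Nat.find hex with hm₀
        have hm₀s : (B i ^ m₀) y = 0 := Nat.find_spec hex
        have hpos : m₀ ≠ 0 := by
          intro h0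
          rw [h0, pow_zero] at hm₀s
          apply hiy
          have : y = 0 := hm₀s
          rw [this, map_zero]
        obtain ⟨j, hj⟩ := Nat.exists_eq_succ_of_ne_zero hpos
        have hstp : ∀ a : ℕ, (B i ^ a) y ∈ Y := by
          intro a
          induction a with
          | zero => simpa using hy
          | succ a iha =>
            rw [pow_succ', Module.End.mul_apply]
            exact hst i _ iha
        refine ⟨(B i ^ j) y, ⟨hstp j, ?_⟩, ?_⟩
        · show B i ((B i ^ j) y) = 0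
          rw [← Module.End.mul_apply, ← pow_succ', ← Nat.succ_eq_add_one, ← hj]
          exact hm₀s
        · exact Nat.find_min hex (by omega)
      obtain ⟨w, hw, hw0, hwB⟩ := ih _ hlt Y' (hfin.subset hY'le)
        (fun a z hz => ⟨hst a z hz.1, by
          show B i (B a z) = 0
          rw [← Module.End.mul_apply, hB i a, Module.End.mul_apply]
          have : B i z = 0 := hz.2
          rw [this, map_zero]⟩)
        (fun a z hz => hnil a z hz.1) hne' rfl
      exact ⟨w, hw.1, hw0, hwB⟩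

/-- `f P w = P(c) • w` on a common eigenvector. -/
theorem map_apply_of_eigen (f : MvPolynomial ℕ ℤ →+* Module.End ℤ J) (c : ℕ → ℤ) (w : J)
    (hw : ∀ r, f (X r) w = c r • w) (P : MvPolynomial ℕ ℤ) : f P w = (aeval c P : ℤ) • w := by
  induction P using MvPolynomial.induction_on with
  | C a =>
    rw [eq_intCast (C : ℤ →+* MvPolynomial ℕ ℤ) a, map_intCast, Module.End.intCast_apply,
      map_intCast]
    rfl
  | add P Q hP hQ => rw [map_add, LinearMap.add_apply, hP, hQ, map_add, add_smul]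
  | mul_X P r hP =>
    rw [map_mul, Module.End.mul_apply, hw, map_zsmul, hP, map_mul, aeval_X, smul_smul, mul_comm]

theorem map_comm (f : MvPolynomial ℕ ℤ →+* Module.End ℤ J) (P Q : MvPolynomial ℕ ℤ) (x : J) :
    f P (f Q x) = f Q (f P x) := by
  rw [← Module.End.mul_apply, ← Module.End.mul_apply, ← map_mul, ← map_mul, mul_comm]

/-- the generalised eigenspace -/
def genEig (f : MvPolynomial ℕ ℤ →+* Module.End ℤ J) (c : ℕ → ℤ) : AddSubgroup J where
  carrier := {x | ∀ r, ∃ m : ℕ, (f (X r - C (c r)) ^ m) x = 0}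
  zero_mem' := fun _ => ⟨0, map_zero _⟩
  add_mem' := by
    intro a b ha hb r
    obtain ⟨m, hm⟩ := ha r
    obtain ⟨m', hm'⟩ := hb r
    refine ⟨m + m', ?_⟩
    have h1 : (f (X r - C (c r)) ^ (m + m')) a = 0 := by
      rw [add_comm, pow_add, Module.End.mul_apply, hm, map_zero]
    have h2 : (f (X r - C (c r)) ^ (m + m')) b = 0 := by
      rw [pow_add, Module.End.mul_apply, hm', map_zero]
    rw [map_add, h1, h2, add_zero]
  neg_mem' := by
    intro a ha r
    obtain ⟨m, hm⟩ := ha r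
    exact ⟨m, by rw [map_neg, hm, neg_zero]⟩

theorem mem_genEig {f : MvPolynomial ℕ ℤ →+* Module.End ℤ J} {c : ℕ → ℤ} {x : J} :
    x ∈ genEig f c ↔ ∀ r, ∃ m : ℕ, (f (X r - C (c r)) ^ m) x = 0 := Iff.rfl

theorem map_mem_genEig {f : MvPolynomial ℕ ℤ →+* Module.End ℤ J} {c : ℕ → ℤ} {x : J}
    (hx : x ∈ genEig f c) (Q : MvPolynomial ℕ ℤ) : f Q x ∈ genEig f c := by
  intro r
  obtain ⟨m, hm⟩ := hx r
  refine ⟨m, ?_⟩
  rw [← map_pow, map_comm, map_pow, hm, map_zero]

/-- **injectivity on the `θ`-part**. -/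
theorem eq_zero_of_map_eq_zero (f : MvPolynomial ℕ ℤ →+* Module.End ℤ J) (c : ℕ → ℤ) {p : ℕ}
    (hp : p.Prime) (hfin : {x : J | p • x = 0}.Finite) (P : MvPolynomial ℕ ℤ)
    (hP : ¬ (p : ℤ) ∣ aeval c P) (x : J) (hx : ∃ n : ℕ, p ^ n • x = 0) (hgen : x ∈ genEig f c)
    (h : f P x = 0) : x = 0 := by
  by_contra hx0
  -- the subgroup `Y`
  let Y : AddSubgroup J :=
    { carrier := {y | p • y = 0 ∧ f P y = 0 ∧ y ∈ genEig f c}
      zero_mem' := ⟨smul_zero _, map_zero _, (genEig f c).zero_mem⟩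
      add_mem' := fun {a b} ha hb => ⟨by rw [smul_add, ha.1, hb.1, add_zero],
        by rw [map_add, ha.2.1, hb.2.1, add_zero], (genEig f c).add_mem ha.2.2 hb.2.2⟩
      neg_mem' := fun {a} ha => ⟨by rw [smul_neg, ha.1, neg_zero], by rw [map_neg, ha.2.1, neg_zero],
        (genEig f c).neg_mem ha.2.2⟩ }
  have hYfin : (Y : Set J).Finite := hfin.subset fun y hy => hy.1
  have hne : ∃ y ∈ Y, y ≠ 0 := by
    classical
    set n₀ := Nat.find hx with hn₀
    have hs : p ^ n₀ • x = 0 := Nat.find_spec hx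
    have hpos : n₀ ≠ 0 := by
      intro h0
      rw [h0, pow_zero, one_smul] at hs
      exact hx0 hs
    obtain ⟨j, hj⟩ := Nat.exists_eq_succ_of_ne_zero hpos
    refine ⟨p ^ j • x, ⟨?_, ?_, ?_⟩, Nat.find_min hx (by omega)⟩
    · rw [smul_smul, ← pow_succ', ← Nat.succ_eq_add_one, ← hj]
      exact hs
    · rw [map_nsmul, h, smul_zero]
    · exact (genEig f c).nsmul_mem hgen _
  obtain ⟨w, hw, hw0, hwB⟩ := exists_common_eigen (fun r : ℕ => f (X r - C (c r)))
    (fun i j => by rw [← map_mul, ← map_mul, mul_comm]) Y hYfin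
    (fun r y hy => ⟨by rw [← map_nsmul, hy.1, map_zero], by rw [map_comm, hy.2.1, map_zero],
      map_mem_genEig hy.2.2 _⟩)
    (fun r y hy => hy.2.2 r) hne
  have heig : ∀ r, f (X r) w = c r • w := by
    intro r
    have h1 := hwB r
    rw [map_sub, LinearMap.sub_apply, eq_intCast (C : ℤ →+* MvPolynomial ℕ ℤ) (c r), map_intCast,
      Module.End.intCast_apply, sub_eq_zero] at h1
    exact h1
  have h2 : (aeval c P : ℤ) • w = 0 := by
    rw [← map_apply_of_eigen f c w heig P]
    exact hw.2.1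
  have hcop : IsCoprime (aeval c P : ℤ) (p : ℤ) :=
    ((Nat.prime_iff_prime_int.mp hp).coprime_iff_not_dvd.mpr hP).symm
  obtain ⟨u, v, huv⟩ := hcop
  apply hw0
  have h3 : (p : ℤ) • w = 0 := by
    rw [natCast_zsmul]
    exact hw.1
  calc w = (1 : ℤ) • w := (one_smul _ _).symm
    _ = (u * aeval c P + v * (p : ℤ)) • w := by rw [huv]
    _ = 0 := by rw [add_smul, mul_smul, mul_smul, h2, h3, smul_zero, smul_zero, add_zero]

/-- pigeonhole: `B ^ (a + b) = B ^ a` on a finite stable subgroup, `b ≥ 1`. -/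
theorem exists_pow_add_eq (B : Module.End ℤ J) (Y : AddSubgroup J) (hfin : (Y : Set J).Finite)
    (hst : ∀ y ∈ Y, B y ∈ Y) : ∃ a b : ℕ, 0 < b ∧ ∀ y ∈ Y, (B ^ (a + b)) y = (B ^ a) y := by
  haveI : Finite Y := hfin
  have hstp : ∀ (n : ℕ), ∀ y ∈ Y, (B ^ n) y ∈ Y := by
    intro n
    induction n with
    | zero => intro y hy; simpa using hy
    | succ n ih =>
      intro y hy
      rw [pow_succ', Module.End.mul_apply]
      exact hst _ (ih y hy)
  let g : ℕ → (Y → Y) := fun n y => ⟨(B ^ n) y, hstp n y y.2⟩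
  obtain ⟨a, b, hab, hg⟩ := Finite.exists_ne_map_eq_of_infinite g
  wlog hlt : a < b generalizing a b
  · exact this b a hab.symm hg.symm (lt_of_le_of_ne (not_lt.mp hlt) hab.symm)
  refine ⟨a, b - a, by omega, fun y hy => ?_⟩
  have := congrArg Subtype.val (congrFun hg ⟨y, hy⟩)
  rw [show a + (b - a) = b by omega]
  exact this.symm

/-- **old-killer** -/
theorem exists_killer (f : MvPolynomial ℕ ℤ →+* Module.End ℤ J) (c : ℕ → ℤ) (Y : AddSubgroup J)
    (hfin : (Y : Set J).Finite) (hst : ∀ (Q : MvPolynomial ℕ ℤ), ∀ y ∈ Y, f Q y ∈ Y)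
    (h0 : ∀ y ∈ Y, y ∈ genEig f c → y = 0) :
    ∃ t : MvPolynomial ℕ ℤ, (∀ y ∈ Y, f t y = 0) ∧ aeval c t = (1 : ℤ) := by
  classical
  -- for each `r` an exponent
  have hex : ∀ r : ℕ, ∃ a b : ℕ, 0 < b ∧
      ∀ y ∈ Y, (f (X r - C (c r)) ^ (a + b)) y = (f (X r - C (c r)) ^ a) y :=
    fun r => exists_pow_add_eq _ Y hfin (hst _)
  choose a b hb hab using hex
  let e : ℕ → MvPolynomial ℕ ℤ := fun r => 1 - (X r - C (c r)) ^ b r
  have he1 : ∀ r, aeval c (e r) = (1 : ℤ) := by
    intro r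
    simp only [e, map_sub, map_one, map_pow, aeval_X, aeval_C]
    simp [(hb r).ne']
  have hekill : ∀ r, ∀ y ∈ Y, (f (X r - C (c r)) ^ a r) (f (e r) y) = 0 := by
    intro r y hy
    have h1 : f (e r) y = y - (f (X r - C (c r)) ^ b r) y := by
      show f (1 - (X r - C (c r)) ^ b r) y = _
      rw [map_sub, map_one, map_pow, LinearMap.sub_apply, Module.End.one_apply]
    rw [h1, map_sub, ← Module.End.mul_apply, ← pow_add, hab r y hy, sub_self]
  -- witnesses
  have hwit : ∀ y : J, y ∈ Y → y ≠ 0 → ∃ r : ℕ, ∀ m : ℕ, (f (X r - C (c r)) ^ m) y ≠ 0 := by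
    intro y hy hy0
    by_contra hcon
    push Not at hcon
    exact hy0 (h0 y hy hcon)
  choose! wit hwit' using hwit
  let R : Finset ℕ := hfin.toFinset.image wit
  refine ⟨∏ r ∈ R, e r, fun y hy => ?_, by rw [map_prod]; exact Finset.prod_eq_one fun r _ => he1 r⟩
  by_contra hne
  set z := f (∏ r ∈ R, e r) y with hz
  have hzY : z ∈ Y := hst _ y hy
  have hr : wit z ∈ R := Finset.mem_image_of_mem _ (hfin.mem_toFinset.mpr hzY)
  apply hwit' z hzY hne (a (wit z))
  have hz2 : z = f (e (wit z)) (f (∏ x ∈ R.erase (wit z), e x) y) := by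
    rw [← Module.End.mul_apply, ← map_mul, Finset.mul_prod_erase R e hr]
  have h3 := hekill (wit z) _ (hst (∏ x ∈ R.erase (wit z), e x) y hy)
  rw [← hz2] at h3
  exact h3

end Fermat.Agent.RIB.Key
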