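import Fermat.Agent.RIB.Key.KillAbs
import Fermat.Agent.RIB.Lift.Main

/-!
# RIB / KEY (K4b) : [KILL-p], concrete form, from [LIFT]   (owner: helper71)

`M` rigid, `ℓ ∤ M`, `p ≠ ℓ`.  `u` an endomorphism of `J₀(M)` which kills `J₀(M)[p]` and preserves the kernel of the reduction map.
Then `red (u ^ e y) = 0` for EVERY `y : JZero M` with `p ^ e • red y = 0` (explicit exponent `e`, no Frobenius, no equivariance of `u`).

Proof.  `red y = red y'` with `p ^ e • y' = 0` (`lift_torsion`); `u ^ e y' = 0`; `y - y' ∈ ker red`, which is stable under `u`.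
-/

set_option autoImplicit false
set_option synthInstance.maxHeartbeats 400000

noncomputable section

open AlgebraicCurve ModularCurve

namespace Fermat.Agent.RIB.Key

open Fermat.Agent.FLAT (Qb GQ)

/-- abstract form -/
theorem red_pow_eq_zero_of_lift {J J' : Type*} [AddCommGroup J] [AddCommGroup J'] {p : ℕ}
    (u : Module.End ℤ J) (hkill : ∀ x : J, p • x = 0 → u x = 0)
    (red : J →+ J') (hstab : ∀ z : J, red z = 0 → red (u z) = 0) (e : ℕ)
    (hlift : ∀ c : J', p ^ e • c = 0 → ∃ x : J, p ^ e • x = 0 ∧ red x = c)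
    (y : J) (hye : p ^ e • red y = 0) : red ((u ^ e) y) = 0 := by
  obtain ⟨y', hy', hred⟩ := hlift _ hye
  have h1 : (u ^ e) y' = 0 := pow_kills_pow_torsion u hkill e y' hy'
  have h2 : red ((u ^ e) (y - y')) = 0 :=
    pow_preserves_ker red u hstab e _ (by rw [map_sub, hred, sub_self])
  rwa [map_sub, h1, sub_zero] at h2

/-- **[KILL-p]** at a rigid level. -/
theorem reductionModL_pow_eq_zero {ℓ p : ℕ} [Fact ℓ.Prime] (M : ℕ) [NeZero M] (hℓM : ¬ ℓ ∣ M)
    (A : ValuationSubring Qb) (hA : A.LiesOverPrime ℓ) (h49 : 4 ∣ M ∨ 9 ∣ M)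
    (h : ReductionInputsModL A M) (hp : p.Prime) (hpℓ : p ≠ ℓ)
    (u : Module.End ℤ (JZero M)) (hkill : ∀ x : JZero M, p • x = 0 → u x = 0)
    (hstab : ∀ z : JZero M, reductionModL A M z = 0 → reductionModL A M (u z) = 0)
    (e : ℕ) (y : JZero M) (hye : p ^ e • reductionModL A M y = 0) :
    reductionModL A M ((u ^ e) y) = 0 :=
  red_pow_eq_zero_of_lift u hkill (reductionModL A M) hstab e
    (fun c hc => lift_torsion M hℓM A hA h49 h (p ^ e)
      (fun hd => hpℓ ((Nat.prime_dvd_prime_iff_eq Fact.out hp).1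
        ((Fact.out : ℓ.Prime).dvd_of_dvd_pow hd)).symm) c hc) y hye

end Fermat.Agent.RIB.Key
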