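import Mathlib

/-!
# RIB / KEY (K4c) : polynomial induction for an additive relation stable under Hecke operators

`P : X → Y → Y → Prop` an additive relation (a subgroup of `X × Y × Y`) which is stable under `(T ℓ, T' ℓ, T' ℓ)` for all `ℓ`.
Then it is stable under `(f t, f' t, f' t)` for every polynomial `t` in the `T ℓ`.
-/

set_option autoImplicit false

namespace Fermat.Agent.RIB.Key

variable {X Y : Type*} [AddCommGroup X] [AddCommGroup Y]

/-- an additive relation between `X` and `Y × Y`. -/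
structure IsAddRel (P : X → Y → Y → Prop) : Prop where
  zero : P 0 0 0
  add : ∀ {x x' y₁ y₁' y₂ y₂'}, P x y₁ y₂ → P x' y₁' y₂' → P (x + x') (y₁ + y₁') (y₂ + y₂')
  neg : ∀ {x y₁ y₂}, P x y₁ y₂ → P (-x) (-y₁) (-y₂)

namespace IsAddRel

variable {P : X → Y → Y → Prop}

theorem nsmul (h : IsAddRel P) {x : X} {y₁ y₂ : Y} (hx : P x y₁ y₂) (n : ℕ) :
    P (n • x) (n • y₁) (n • y₂) := by
  induction n with
  | zero => simpa using h.zero
  | succ n ih => rw [succ_nsmul, succ_nsmul, succ_nsmul]; exact h.add ih hx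

theorem zsmul (h : IsAddRel P) {x : X} {y₁ y₂ : Y} (hx : P x y₁ y₂) (n : ℤ) :
    P (n • x) (n • y₁) (n • y₂) := by
  obtain ⟨n, rfl | rfl⟩ := n.eq_nat_or_neg
  · rw [natCast_zsmul, natCast_zsmul, natCast_zsmul]; exact h.nsmul hx n
  · rw [neg_smul, neg_smul, neg_smul, natCast_zsmul, natCast_zsmul, natCast_zsmul]
    exact h.neg (h.nsmul hx n)

theorem sub (h : IsAddRel P) {x x' : X} {y₁ y₁' y₂ y₂' : Y} (hx : P x y₁ y₂)
    (hx' : P x' y₁' y₂') : P (x - x') (y₁ - y₁') (y₂ - y₂') := by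
  rw [sub_eq_add_neg, sub_eq_add_neg, sub_eq_add_neg]
  exact h.add hx (h.neg hx')

/-- **polynomial induction** -/
theorem poly (h : IsAddRel P) (T : ℕ → Module.End ℤ X) (T' : ℕ → Module.End ℤ Y)
    (hT : ∀ (ℓ : ℕ) {x : X} {y₁ y₂ : Y}, P x y₁ y₂ → P (T ℓ x) (T' ℓ y₁) (T' ℓ y₂))
    (f : MvPolynomial ℕ ℤ →+* Module.End ℤ X) (hf : ∀ ℓ, f (MvPolynomial.X ℓ) = T ℓ)
    (f' : MvPolynomial ℕ ℤ →+* Module.End ℤ Y) (hf' : ∀ ℓ, f' (MvPolynomial.X ℓ) = T' ℓ)
    (t : MvPolynomial ℕ ℤ) {x : X} {y₁ y₂ : Y} (hx : P x y₁ y₂) :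
    P (f t x) (f' t y₁) (f' t y₂) := by
  induction t using MvPolynomial.induction_on generalizing x y₁ y₂ with
  | C a =>
    rw [eq_intCast (MvPolynomial.C : ℤ →+* MvPolynomial ℕ ℤ) a, map_intCast, map_intCast,
      Module.End.intCast_apply, Module.End.intCast_apply, Module.End.intCast_apply]
    exact h.zsmul hx a
  | add p q hp hq =>
    rw [map_add, map_add, LinearMap.add_apply, LinearMap.add_apply, LinearMap.add_apply]
    exact h.add (hp hx) (hq hx)
  | mul_X p ℓ hp =>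
    rw [map_mul, map_mul, Module.End.mul_apply, Module.End.mul_apply, Module.End.mul_apply, hf,
      hf']
    exact hp (hT ℓ hx)

end IsAddRel

end Fermat.Agent.RIB.Key
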