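import Fermat.Agent.RIB.Key.SwapT
import Fermat.Agent.RIB.Deg.Fun
import Fermat.Agent.RIB.Main.Defs

/-!
# RIB / KEY : the Atkin-Lehner swap `w_q` on `J₀(M q)`  (consumer API for `key_theta`, (MP), B5)

* `hecke_swAut_smul` : `T_r (w x) = w (T_r x)` for ALL `x : JZero (M * q)`, `r` prime, `r ≠ q`.
* `wJ hqM : JZero (M * q) →+ JZero (M * q)`, `wJ_wJ`, `wJ_smul` (Galois), `wJ_hecke`, `wJ_mem_thetaPart`, `wJ_mem_WS`.
-/

set_option autoImplicit false
set_option linter.style.haveILetI false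
set_option linter.unusedSectionVars false

noncomputable section

open AlgebraicCurve ModularCurve

namespace Fermat.Agent.RIB.Key

open Fermat.Agent.RED hiding Kb
open Fermat.Agent.S24 Fermat.Agent.RED.TorsES Fermat.Agent.SS

local notation "GQ" => (AlgebraicClosure ℚ ≃ₐ[ℚ] AlgebraicClosure ℚ)

/-- the identification of two equal levels, as an algebra isomorphism -/
def castAlgEquiv {N N' : ℕ} (h : N = N') : FN N ≃ₐ[Kb] FN N' :=
  AlgEquiv.ofAlgHom (GAL.HeckeComm.castLevel h) (GAL.HeckeComm.castLevel h.symm)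
    (AlgHom.ext fun x => Subtype.ext (by
      simp only [AlgHom.comp_apply, AlgHom.id_apply]
      rw [GAL.HeckeComm.coe_castLevel, GAL.HeckeComm.coe_castLevel]))
    (AlgHom.ext fun x => Subtype.ext (by
      simp only [AlgHom.comp_apply, AlgHom.id_apply]
      rw [GAL.HeckeComm.coe_castLevel, GAL.HeckeComm.coe_castLevel]))

theorem coe_castAlgEquiv {N N' : ℕ} (h : N = N') (x : FN N) :
    ((castAlgEquiv h x : FN N') : LaurentSeries Kb) = x := GAL.HeckeComm.coe_castLevel h x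

theorem coe_castAlgEquiv_symm {N N' : ℕ} (h : N = N') (x : FN N') :
    (((castAlgEquiv h).symm x : FN N) : LaurentSeries Kb) = x :=
  GAL.HeckeComm.coe_castLevel h.symm x

variable {M q : ℕ} [NeZero M] [hq : Fact q.Prime] (hqM : ¬ q ∣ M)

/-- `w_q` at the level `(M q) r`, as the conjugate of `w_q` at the level `(M r) q`. -/
def swUp (r : ℕ) [NeZero r] (h₂ : ¬ q ∣ M * r) : SemilinearAut Kb (FN (M * q * r)) :=
  SemilinearAut.ofAlgAut
    (((castAlgEquiv (show M * q * r = M * r * q by ring)).trans (swEquiv h₂)).trans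
      (castAlgEquiv (show M * q * r = M * r * q by ring)).symm)

theorem swUp_lev (M q r : ℕ) : M * q * r = M * r * q := by ring

theorem coe_swUp_smul (r : ℕ) [NeZero r] (h₂ : ¬ q ∣ M * r) (z : FN (M * q * r)) :
    ((swUp r h₂ • z : FN (M * q * r)) : LaurentSeries Kb) =
      ((swAlg (M * r) q h₂ (castAlgEquiv (swUp_lev M q r) z) :
        FN (M * r * q)) : LaurentSeries Kb) :=
  coe_castAlgEquiv_symm (swUp_lev M q r) _

theorem intertwines_alpha_swAut (r : ℕ) [NeZero r] (h₂ : ¬ q ∣ M * r) :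
    SemilinearAut.IntertwinesAlong (heckeAlphaBar Kb (M * q) r).toRingHom (swAut hqM)
      (swUp r h₂) := by
  intro a
  show swUp r h₂ • (heckeAlphaBar Kb (M * q) r a) = heckeAlphaBar Kb (M * q) r (swAlg M q hqM a)
  apply Subtype.ext
  rw [coe_swUp_smul, coe_swAlg_of_qExpand (c := 1) hqM h₂
    (by rw [mul_one]; exact dvd_mul_right M r)
    (f := a) (by rw [coe_castAlgEquiv, coe_heckeAlphaBar, qExpand_one_apply]),
    qExpand_one_apply, coe_heckeAlphaBar]

theorem intertwines_beta_swAut (r : ℕ) [NeZero r] (h₂ : ¬ q ∣ M * r) :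
    SemilinearAut.IntertwinesAlong (heckeBetaBar Kb (M * q) r).toRingHom (swAut hqM)
      (swUp r h₂) := by
  intro a
  show swUp r h₂ • (heckeBetaBar Kb (M * q) r a) = heckeBetaBar Kb (M * q) r (swAlg M q hqM a)
  apply Subtype.ext
  rw [coe_swUp_smul, coe_swAlg_of_qExpand (c := r) hqM h₂ dvd_rfl
    (f := a) (by rw [coe_castAlgEquiv, coe_heckeBetaBar]), coe_heckeBetaBar]

/-- **[SW-HECKE]** : `w_q` commutes with `T_r` on the whole of `J₀(M q)`. -/
theorem hecke_swAut_smul (r : Nat.Primes) (hqr : ¬ q ∣ (r : ℕ)) (x : JZero (M * q)) :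
    heckeOperatorBar (M * q) r (swAut hqM • x) = swAut hqM • heckeOperatorBar (M * q) r x := by
  obtain ⟨r, hr⟩ := r
  haveI : NeZero r := ⟨hr.ne_zero⟩
  have h₂ : ¬ q ∣ M * r := fun h => (hq.out.dvd_mul.1 h).elim hqM hqr
  rw [hecke_eq_jPush_jPull, hecke_eq_jPush_jPull]
  unfold jPull jPush
  rw [RED.pullPic0_smul _ _ _ (intertwines_beta_swAut hqM r h₂),
    SS.pushPic0_smul _ _ _ _ (intertwines_alpha_swAut hqM r h₂)]

/-- `w_q` as an additive endomorphism of `J₀(M q)`. -/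
def wJ : JZero (M * q) →+ JZero (M * q) :=
  DistribSMul.toAddMonoidHom (JZero (M * q)) (swAut hqM)

theorem wJ_apply (x : JZero (M * q)) : wJ hqM x = swAut hqM • x := rfl

theorem wJ_wJ (x : JZero (M * q)) : wJ hqM (wJ hqM x) = x := swAut_smul_swAut_smul hqM x

theorem wJ_smul (g : GQ) (x : JZero (M * q)) : wJ hqM (g • x) = g • wJ hqM x :=
  (gal_smul_swAut_smul hqM g x).symm

theorem wJ_hecke (r : Nat.Primes) (hqr : ¬ q ∣ (r : ℕ)) (x : JZero (M * q)) :
    wJ hqM (heckeOperatorBar (M * q) r x) = heckeOperatorBar (M * q) r (wJ hqM x) :=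
  (hecke_swAut_smul hqM r hqr x).symm

theorem wJ_mem_thetaPart {p : ℕ} {S : Set ℕ} {θ : ℕ → ℤ} (hS : q ∈ S) {x : JZero (M * q)}
    (hx : x ∈ thetaPart (M * q) p S θ) : wJ hqM x ∈ thetaPart (M * q) p S θ :=
  map_mem_thetaPart (wJ hqM) (fun r hr y _ => wJ_hecke hqM r (fun h => hr (by
    rwa [← (Nat.prime_dvd_prime_iff_eq hq.out r.2).1 h])) y) hx

theorem wJ_mem_WS {p : ℕ} {S : Set ℕ} {θ : ℕ → ℤ} (hS : q ∈ S) {x : JZero (M * q)}
    (hx : x ∈ WS (M * q) p S θ) : wJ hqM x ∈ WS (M * q) p S θ :=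
  map_mem_WS (wJ hqM) (fun _ h => wJ_mem_thetaPart hqM hS h) hx

end Fermat.Agent.RIB.Key
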