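import Fermat.Agent.SS.Top35.NormBC
import Fermat.Agent.SS.Swap.Mod
import Fermat.Agent.GAL.HeckeComm

/-!
# RIB / KEY (K2a) [HK-SWAP] : the Atkin-Lehner swap `w_q` commutes with the multiplicative Hecke operator
`T^×_r u = N_α (β u)` on the function field of level `M q`  (`r` prime to `q`)

`w_q` at the level `(M r) q` restricts to `w_q` at the level `M q` along `α_r` and along `β_r`
(`SS.coe_swAlg_of_qExpand` with `c = 1`, `c = r`), and the norm is compatible with a pair of automorphisms.
-/

set_option autoImplicit false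
set_option linter.style.haveILetI false
set_option linter.unusedSectionVars false

noncomputable section

open AlgebraicCurve ModularCurve

namespace Fermat.Agent.RIB.Key

open Fermat.Agent.RED hiding Kb
open Fermat.Agent.S24 Fermat.Agent.RED.TorsES Fermat.Agent.SS

/-- the norm along `α` is compatible with a pair of automorphisms -/
theorem normAlong_equiv_equiv {K F F' : Type*} [Field K] [Field F] [Field F'] [Algebra K F]
    [Algebra K F'] (α : F →ₐ[K] F') (s : F ≃+* F) (s' : F' ≃+* F') (h : ∀ a, s' (α a) = α (s a))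
    (z : F') : normAlong α (s' z) = s (normAlong α z) := by
  unfold TorsES.normAlong
  have := @Algebra.norm_eq_of_equiv_equiv F F' F F' _ _ _ _ (algebraAlong α) (algebraAlong α)
    s s' (by
      refine RingHom.ext fun a => ?_
      exact (h a).symm) z
  rw [this, RingEquiv.apply_symm_apply]

/-- abstract [HK-SWAP] -/
theorem normAlong_comp_equiv {K F F' : Type*} [Field K] [Field F] [Field F'] [Algebra K F]
    [Algebra K F'] (α β : F →ₐ[K] F') (s : F ≃+* F) (s' : F' ≃+* F')
    (hα : ∀ a, s' (α a) = α (s a)) (hβ : ∀ a, s' (β a) = β (s a)) (u : F) :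
    normAlong α (β (s u)) = s (normAlong α (β u)) := by
  rw [← hβ, normAlong_equiv_equiv α s s' hα]

/-- the identification of two equal levels, as a ring isomorphism -/
def castEquiv {N N' : ℕ} (h : N = N') : FN N ≃+* FN N' :=
  RingEquiv.ofRingHom (GAL.HeckeComm.castLevel h : FN N →+* FN N')
    (GAL.HeckeComm.castLevel h.symm : FN N' →+* FN N)
    (RingHom.ext fun x => Subtype.ext (by
      simp only [RingHom.comp_apply, RingHom.coe_coe, RingHom.id_apply]
      rw [GAL.HeckeComm.coe_castLevel, GAL.HeckeComm.coe_castLevel]))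
    (RingHom.ext fun x => Subtype.ext (by
      simp only [RingHom.comp_apply, RingHom.coe_coe, RingHom.id_apply]
      rw [GAL.HeckeComm.coe_castLevel, GAL.HeckeComm.coe_castLevel]))

theorem coe_castEquiv {N N' : ℕ} (h : N = N') (x : FN N) :
    ((castEquiv h x : FN N') : LaurentSeries Kb) = x := GAL.HeckeComm.coe_castLevel h x

theorem coe_castEquiv_symm {N N' : ℕ} (h : N = N') (x : FN N') :
    (((castEquiv h).symm x : FN N) : LaurentSeries Kb) = x := GAL.HeckeComm.coe_castLevel h.symm x

variable {M q : ℕ} [NeZero M] [hq : Fact q.Prime] (hqM : ¬ q ∣ M)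

/-- **(K2a) [HK-SWAP]** -/
theorem swAlg_normAlong_hecke (r : ℕ) [NeZero r] (hqr : ¬ q ∣ r) (u : FN (M * q)) :
    swAlg M q hqM (normAlong (heckeAlphaBar Kb (M * q) r) (heckeBetaBar Kb (M * q) r u)) =
      normAlong (heckeAlphaBar Kb (M * q) r) (heckeBetaBar Kb (M * q) r (swAlg M q hqM u)) := by
  have h₂ : ¬ q ∣ M * r := fun h => (hq.out.dvd_mul.1 h).elim hqM hqr
  have hlev : M * q * r = M * r * q := by ring
  set s' : FN (M * q * r) ≃+* FN (M * q * r) :=
    ((castEquiv hlev).trans (swEquiv h₂).toRingEquiv).trans (castEquiv hlev).symm with hs'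
  have hs'coe : ∀ z : FN (M * q * r), ((s' z : FN (M * q * r)) : LaurentSeries Kb) =
      ((swAlg (M * r) q h₂ (castEquiv hlev z) : FN (M * r * q)) : LaurentSeries Kb) := by
    intro z
    rw [hs']
    exact coe_castEquiv_symm hlev _
  have hα : ∀ a, s' (heckeAlphaBar Kb (M * q) r a) =
      heckeAlphaBar Kb (M * q) r ((swEquiv hqM).toRingEquiv a) := by
    intro a
    apply Subtype.ext
    rw [hs'coe, coe_swAlg_of_qExpand (c := 1) hqM h₂ (by rw [mul_one]; exact dvd_mul_right M r)
      (f := a) (by rw [coe_castEquiv, coe_heckeAlphaBar, qExpand_one_apply]), qExpand_one_apply,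
      coe_heckeAlphaBar]
    rfl
  have hβ : ∀ a, s' (heckeBetaBar Kb (M * q) r a) =
      heckeBetaBar Kb (M * q) r ((swEquiv hqM).toRingEquiv a) := by
    intro a
    apply Subtype.ext
    rw [hs'coe, coe_swAlg_of_qExpand (c := r) hqM h₂ dvd_rfl
      (f := a) (by rw [coe_castEquiv, coe_heckeBetaBar]), coe_heckeBetaBar]
    rfl
  exact (normAlong_comp_equiv _ _ (swEquiv hqM).toRingEquiv s' hα hβ u).symm

/-- [HK-SWAP] for `swAut` -/
theorem swAut_smul_normAlong_hecke (r : ℕ) [NeZero r] (hqr : ¬ q ∣ r) (u : FN (M * q)) :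
    swAut hqM • (normAlong (heckeAlphaBar Kb (M * q) r) (heckeBetaBar Kb (M * q) r u)) =
      normAlong (heckeAlphaBar Kb (M * q) r) (heckeBetaBar Kb (M * q) r (swAut hqM • u)) :=
  swAlg_normAlong_hecke hqM r hqr u

end Fermat.Agent.RIB.Key
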