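import Fermat.Agent.RIB.Key.Alg
import Fermat.Agent.RIB.Grow.Tau
import Fermat.Agent.S40.Kill.Main
import Fermat.Agent.S40.Defs

/-!
# RIB / KEY-ALG on `thetaPart`

`f : ℤ[X_ℓ] →+* End (J₀(N))`, `f (X ℓ) = S40.Kill.TJ N S ℓ` (`= T_ℓ` for `ℓ` prime `∉ S`, `0` otherwise),
`c := S40.cutS S θ` (`= θ ℓ` for `ℓ` prime `∉ S`, `0` otherwise).

* `mem_genEig_iff`      : `genEig f c` ∩ `p`-power torsion `= thetaPart N p S θ`.
* `exists_oldKiller`    : `thetaPart M p S θ` has no `p`-torsion ⇒ `∃ t₀`, `t₀(c) = 1`, `f t₀ = 0` on `J₀(M)[p]`.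
* `eq_zero_of_poly`     : `P(c) ≢ 0 mod p` ⇒ `f P` is injective on `thetaPart`.
* `eq_zero_of_comm`     : transfer: `E` additive, commuting with `f P`, preserving `thetaPart`; `E (f P x) = 0` ⇒ `E x = 0`.
-/

set_option autoImplicit false

noncomputable section

open AlgebraicCurve ModularCurve MvPolynomial

namespace Fermat.Agent.RIB.Key

open Fermat.Agent.GAL Fermat.Agent.GAL.PC Fermat.Agent.S40 Fermat.Agent.S40.Kill

variable {N p : ℕ} [NeZero N] {S : Set ℕ} {θ : ℕ → ℤ}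

theorem map_X_sub_C_good (f : MvPolynomial ℕ ℤ →+* Module.End ℤ (JZero N))
    (hf : ∀ ℓ, f (X ℓ) = TJ N S ℓ) (r : Nat.Primes) (hr : (r : ℕ) ∉ S) :
    f (X (r : ℕ) - C (cutS S θ r)) = hk N θ r := by
  rw [map_sub, hf, TJ_of_good r.2 hr, cutS_of_good r.2 hr,
    eq_intCast (C : ℤ →+* MvPolynomial ℕ ℤ) (θ r), map_intCast]
  rfl

theorem map_X_sub_C_bad (f : MvPolynomial ℕ ℤ →+* Module.End ℤ (JZero N))
    (hf : ∀ ℓ, f (X ℓ) = TJ N S ℓ) (r : ℕ) (hr : ¬ (r.Prime ∧ r ∉ S)) :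
    f (X r - C (cutS S θ r)) = 0 := by
  rw [map_sub, hf, TJ_of_bad hr, cutS_of_bad hr, map_zero, map_zero, sub_zero]

theorem mem_genEig_iff (f : MvPolynomial ℕ ℤ →+* Module.End ℤ (JZero N))
    (hf : ∀ ℓ, f (X ℓ) = TJ N S ℓ) (x : JZero N) :
    x ∈ genEig f (cutS S θ) ↔ ∀ r : Nat.Primes, (r : ℕ) ∉ S → ∃ m : ℕ, (hk N θ r ^ m) x = 0 := by
  constructor
  · intro h r hr
    obtain ⟨m, hm⟩ := h r
    rw [map_X_sub_C_good f hf r hr] at hm
    exact ⟨m, hm⟩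
  · intro h r
    by_cases hr : r.Prime ∧ r ∉ S
    · obtain ⟨m, hm⟩ := h ⟨r, hr.1⟩ hr.2
      refine ⟨m, ?_⟩
      rw [map_X_sub_C_good f hf ⟨r, hr.1⟩ hr.2]
      exact hm
    · exact ⟨1, by rw [map_X_sub_C_bad f hf r hr, pow_one, LinearMap.zero_apply]⟩

theorem mem_thetaPart_iff_genEig (f : MvPolynomial ℕ ℤ →+* Module.End ℤ (JZero N))
    (hf : ∀ ℓ, f (X ℓ) = TJ N S ℓ) (x : JZero N) :
    x ∈ thetaPart N p S θ ↔ (∃ n : ℕ, p ^ n • x = 0) ∧ x ∈ genEig f (cutS S θ) := by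
  rw [mem_thetaPart, mem_genEig_iff f hf]

/-- `f Q` preserves the `θ`-part. -/
theorem map_mem_thetaPart_poly (f : MvPolynomial ℕ ℤ →+* Module.End ℤ (JZero N))
    (hf : ∀ ℓ, f (X ℓ) = TJ N S ℓ) (Q : MvPolynomial ℕ ℤ) {x : JZero N}
    (hx : x ∈ thetaPart N p S θ) : f Q x ∈ thetaPart N p S θ := by
  rw [mem_thetaPart_iff_genEig f hf] at hx ⊢
  obtain ⟨⟨n, hn⟩, hg⟩ := hx
  exact ⟨⟨n, by rw [← map_nsmul, hn, map_zero]⟩, map_mem_genEig hg Q⟩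

/-- **old-killer** : if `ρ̄` does not occur at level `N`, some Hecke polynomial `t₀` with `t₀(θ) = 1` kills `J₀(N)[p]`. -/
theorem exists_oldKiller (hp : p ≠ 0) (f : MvPolynomial ℕ ℤ →+* Module.End ℤ (JZero N))
    (hf : ∀ ℓ, f (X ℓ) = TJ N S ℓ) (h0 : ∀ x ∈ thetaPart N p S θ, p • x = 0 → x = 0) :
    ∃ t₀ : MvPolynomial ℕ ℤ, (∀ x : JZero N, p • x = 0 → f t₀ x = 0) ∧
      aeval (cutS S θ) t₀ = (1 : ℤ) := by
  let Y : AddSubgroup (JZero N) :=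
    { carrier := {x | p • x = 0}
      zero_mem' := smul_zero _
      add_mem' := fun {a b} (ha : p • a = 0) (hb : p • b = 0) => by
        show p • (a + b) = 0
        rw [nsmul_add, ha, hb, add_zero]
      neg_mem' := fun {a} (ha : p • a = 0) => by
        show p • (-a) = 0
        rw [neg_nsmul, ha, neg_zero] }
  obtain ⟨t, ht, ht1⟩ := exists_killer f (cutS S θ) Y (finite_torsion_JZero N p hp)
    (fun Q y (hy : p • y = 0) => by
      show p • f Q y = 0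
      rw [← map_nsmul, hy, map_zero])
    (fun y (hy : p • y = 0) hg => h0 y ((mem_thetaPart_iff_genEig f hf y).2
      ⟨⟨1, by rw [pow_one]; exact hy⟩, hg⟩) hy)
  exact ⟨t, fun x hx => ht x hx, ht1⟩

/-- **injectivity of Hecke polynomials on the `θ`-part**. -/
theorem eq_zero_of_poly (hp : p.Prime) (f : MvPolynomial ℕ ℤ →+* Module.End ℤ (JZero N))
    (hf : ∀ ℓ, f (X ℓ) = TJ N S ℓ) (P : MvPolynomial ℕ ℤ)
    (hP : ¬ (p : ℤ) ∣ aeval (cutS S θ) P) {x : JZero N} (hx : x ∈ thetaPart N p S θ)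
    (h : f P x = 0) : x = 0 := by
  rw [mem_thetaPart_iff_genEig f hf] at hx
  exact eq_zero_of_map_eq_zero f _ hp (finite_torsion_JZero N p hp.ne_zero) P hP x hx.1 hx.2 h

/-- transfer through an operator commuting with the Hecke polynomial. -/
theorem eq_zero_of_comm (hp : p.Prime) (f : MvPolynomial ℕ ℤ →+* Module.End ℤ (JZero N))
    (hf : ∀ ℓ, f (X ℓ) = TJ N S ℓ) (P : MvPolynomial ℕ ℤ)
    (hP : ¬ (p : ℤ) ∣ aeval (cutS S θ) P) (E : JZero N →+ JZero N) {x : JZero N}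
    (hEx : E x ∈ thetaPart N p S θ) (hcomm : E (f P x) = f P (E x)) (h : E (f P x) = 0) :
    E x = 0 :=
  eq_zero_of_poly hp f hf P hP hEx (by rw [← hcomm, h])

end Fermat.Agent.RIB.Key
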