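import Fermat.Agent.RIB.Key.RelAbs

/-!
# RIB / KEY (K4c) : the relation `Tri`, abstract form

`X = J₀(M q)`, `Y = J₀(M)`, `red : Y → C = Pic⁰` of the special fibre of level `M`, `F` the function field of level `M q`, `Fb` the function
field of the special fibre of level `M`.

* `Kum x f`  : `f` is a Kummer function of the `m`-torsion class `x` (`x = [D]`, `m D = div f`);
* `U f`      : `f` is a unit for the two valuations; `ρ₁ f`, `ρ₂ f` its two reductions;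
* `Rel w y`  : `div w = m E` and `red y = [E]`.

`Tri x y₁ y₂ := ∃ f, Kum x f ∧ U f ∧ Rel (ρ₁ f) y₁ ∧ Rel (ρ₂ f) y₂` is an additive relation, stable under the Hecke operators, and
`Tri 0 y₁ y₂ → red y₁ = red y₂ = 0`.   Consequence (`TriData.tri_zero_of_theta`): if `x` is in the `θ`-part, `y₁ y₂` are `m`-torsion, `red` is injective on
`m`-torsion and the `θ`-part of `Y[m]` is zero then `Tri x 0 0` ("`x` is toric").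
-/

set_option autoImplicit false

namespace Fermat.Agent.RIB.Key

/-- the abstract data. -/
structure TriData (X Y C F Fb ι : Type*) [AddCommGroup X] [AddCommGroup Y] [AddCommGroup C]
    [Field F] [Field Fb] where
  red : Y →+ C
  Kum : X → F → Prop
  U : F → Prop
  ρ₁ : F → Fb
  ρ₂ : F → Fb
  Rel : Fb → Y → Prop
  kum_zero : Kum 0 1
  kum_add : ∀ {x x' f f'}, Kum x f → Kum x' f' → Kum (x + x') (f * f')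
  kum_neg : ∀ {x f}, Kum x f → Kum (-x) f⁻¹
  U_one : U 1
  U_mul : ∀ {f f'}, U f → U f' → U (f * f')
  U_inv : ∀ {f}, U f → U f⁻¹
  ρ₁_one : ρ₁ 1 = 1
  ρ₂_one : ρ₂ 1 = 1
  ρ₁_mul : ∀ {f f'}, U f → U f' → ρ₁ (f * f') = ρ₁ f * ρ₁ f'
  ρ₂_mul : ∀ {f f'}, U f → U f' → ρ₂ (f * f') = ρ₂ f * ρ₂ f'
  ρ₁_inv : ∀ {f}, U f → ρ₁ f⁻¹ = (ρ₁ f)⁻¹
  ρ₂_inv : ∀ {f}, U f → ρ₂ f⁻¹ = (ρ₂ f)⁻¹
  rel_one : Rel 1 0
  rel_mul : ∀ {w w' y y'}, Rel w y → Rel w' y' → Rel (w * w') (y + y')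
  rel_inv : ∀ {w y}, Rel w y → Rel w⁻¹ (-y)
  rel_red_eq : ∀ {w y y'}, Rel w y → Rel w y' → red y = red y'
  /-- a Kummer function of the zero class is a constant times an `m`-th power -/
  rel_of_kum_zero : ∀ {f}, Kum 0 f → U f → Rel (ρ₁ f) 0 ∧ Rel (ρ₂ f) 0
  /-- Hecke operators -/
  TX : ι → Module.End ℤ X
  TY : ι → Module.End ℤ Y
  Tx : ι → F → F
  kum_hecke : ∀ (r : ι) {x f}, Kum x f → Kum (TX r x) (Tx r f)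
  U_hecke : ∀ (r : ι) {f}, U f → U (Tx r f)
  rel_hecke₁ : ∀ (r : ι) {f y}, U f → Rel (ρ₁ f) y → Rel (ρ₁ (Tx r f)) (TY r y)
  rel_hecke₂ : ∀ (r : ι) {f y}, U f → Rel (ρ₂ f) y → Rel (ρ₂ (Tx r f)) (TY r y)

namespace TriData

variable {X Y C F Fb ι : Type*} [AddCommGroup X] [AddCommGroup Y] [AddCommGroup C]
  [Field F] [Field Fb] (𝒯 : TriData X Y C F Fb ι)

/-- the relation -/
def Tri (x : X) (y₁ y₂ : Y) : Prop :=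
  ∃ f : F, 𝒯.Kum x f ∧ 𝒯.U f ∧ 𝒯.Rel (𝒯.ρ₁ f) y₁ ∧ 𝒯.Rel (𝒯.ρ₂ f) y₂

theorem isAddRel : IsAddRel 𝒯.Tri where
  zero := ⟨1, 𝒯.kum_zero, 𝒯.U_one, by rw [𝒯.ρ₁_one]; exact 𝒯.rel_one,
    by rw [𝒯.ρ₂_one]; exact 𝒯.rel_one⟩
  add := by
    rintro x x' y₁ y₁' y₂ y₂' ⟨f, h1, h2, h3, h4⟩ ⟨f', h1', h2', h3', h4'⟩
    exact ⟨f * f', 𝒯.kum_add h1 h1', 𝒯.U_mul h2 h2', by rw [𝒯.ρ₁_mul h2 h2']; exact 𝒯.rel_mul h3 h3',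
      by rw [𝒯.ρ₂_mul h2 h2']; exact 𝒯.rel_mul h4 h4'⟩
  neg := by
    rintro x y₁ y₂ ⟨f, h1, h2, h3, h4⟩
    exact ⟨f⁻¹, 𝒯.kum_neg h1, 𝒯.U_inv h2, by rw [𝒯.ρ₁_inv h2]; exact 𝒯.rel_inv h3,
      by rw [𝒯.ρ₂_inv h2]; exact 𝒯.rel_inv h4⟩

theorem tri_hecke (r : ι) {x : X} {y₁ y₂ : Y} (h : 𝒯.Tri x y₁ y₂) :
    𝒯.Tri (𝒯.TX r x) (𝒯.TY r y₁) (𝒯.TY r y₂) := by
  obtain ⟨f, h1, h2, h3, h4⟩ := h
  exact ⟨𝒯.Tx r f, 𝒯.kum_hecke r h1, 𝒯.U_hecke r h2, 𝒯.rel_hecke₁ r h2 h3, 𝒯.rel_hecke₂ r h2 h4⟩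

theorem red_eq_zero_of_tri_zero {y₁ y₂ : Y} (h : 𝒯.Tri 0 y₁ y₂) :
    𝒯.red y₁ = 0 ∧ 𝒯.red y₂ = 0 := by
  obtain ⟨f, h1, h2, h3, h4⟩ := h
  obtain ⟨h5, h6⟩ := 𝒯.rel_of_kum_zero h1 h2
  exact ⟨by rw [𝒯.rel_red_eq h3 h5, map_zero], by rw [𝒯.rel_red_eq h4 h6, map_zero]⟩

/-- stability under `T_r - θ`. -/
theorem tri_hk (r : ι) (θ : ℤ) {x : X} {y₁ y₂ : Y} (h : 𝒯.Tri x y₁ y₂) :
    𝒯.Tri ((𝒯.TX r - (θ : Module.End ℤ X)) x) ((𝒯.TY r - (θ : Module.End ℤ Y)) y₁)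
      ((𝒯.TY r - (θ : Module.End ℤ Y)) y₂) := by
  rw [LinearMap.sub_apply, LinearMap.sub_apply, LinearMap.sub_apply, Module.End.intCast_apply,
    Module.End.intCast_apply, Module.End.intCast_apply]
  exact 𝒯.isAddRel.sub (𝒯.tri_hecke r h) (𝒯.isAddRel.zsmul h θ)

theorem tri_hk_pow (r : ι) (θ : ℤ) (n : ℕ) {x : X} {y₁ y₂ : Y} (h : 𝒯.Tri x y₁ y₂) :
    𝒯.Tri (((𝒯.TX r - (θ : Module.End ℤ X)) ^ n) x) (((𝒯.TY r - (θ : Module.End ℤ Y)) ^ n) y₁)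
      (((𝒯.TY r - (θ : Module.End ℤ Y)) ^ n) y₂) := by
  induction n generalizing x y₁ y₂ with
  | zero => simpa using h
  | succ n ih =>
    rw [pow_succ, pow_succ, Module.End.mul_apply, Module.End.mul_apply, Module.End.mul_apply]
    exact ih (𝒯.tri_hk r θ h)

/-- **the `θ`-part argument.** -/
theorem tri_zero_of_theta (m : ℕ) (θ : ι → ℤ)
    (hinj : ∀ y : Y, m • y = 0 → 𝒯.red y = 0 → y = 0)
    (hold : ∀ y : Y, m • y = 0 →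
      (∀ r : ι, ∃ n : ℕ, ((𝒯.TY r - ((θ r : ℤ) : Module.End ℤ Y)) ^ n) y = 0) → y = 0)
    {x : X} (hx : ∀ r : ι, ∃ n : ℕ, ((𝒯.TX r - ((θ r : ℤ) : Module.End ℤ X)) ^ n) x = 0)
    {y₁ y₂ : Y} (hy₁ : m • y₁ = 0) (hy₂ : m • y₂ = 0) (h : 𝒯.Tri x y₁ y₂) : 𝒯.Tri x 0 0 := by
  have key : ∀ r : ι, ∃ n : ℕ, ((𝒯.TY r - ((θ r : ℤ) : Module.End ℤ Y)) ^ n) y₁ = 0 ∧
      ((𝒯.TY r - ((θ r : ℤ) : Module.End ℤ Y)) ^ n) y₂ = 0 := by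
    intro r
    obtain ⟨n, hn⟩ := hx r
    have h1 := 𝒯.tri_hk_pow r (θ r) n h
    rw [hn] at h1
    obtain ⟨h2, h3⟩ := 𝒯.red_eq_zero_of_tri_zero h1
    exact ⟨n, hinj _ (by rw [← map_nsmul, hy₁, map_zero]) h2,
      hinj _ (by rw [← map_nsmul, hy₂, map_zero]) h3⟩
  have e₁ : y₁ = 0 := hold y₁ hy₁ fun r => ⟨(key r).choose, (key r).choose_spec.1⟩
  have e₂ : y₂ = 0 := hold y₂ hy₂ fun r => ⟨(key r).choose, (key r).choose_spec.2⟩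
  rwa [e₁, e₂] at h

end TriData

end Fermat.Agent.RIB.Key
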